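import Fermat.Agent.LT.HK.Basic
import Fermat.Agent.LT.RProd

/-!
# Hecke kernels on restricted products (helper62)

* `kp k hk` : the product of the kernels `k v`, almost all equal to `1`; `kp_mul`, `star_kp`;
* `single v : HK G (D v) →ₐ[ℂ] HK G (RProd D b)`; `commute_single`; `single_mul_kp`;
* `map_single`, `map_kp` : transport along a bijection permuting the factors.
-/

set_option autoImplicit false

noncomputable section

open Function Set

namespace Fermat.Agent.LT.HK

/-! ### Boundedness of the row sums -/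

section Bounded

variable {G : Type*} [Group G] {X : Type*} [MulAction G X]

theorem exists_rowSum_le (h : ∃ T : Finset X, ∀ x, ∃ g : G, g • x ∈ T) (a : HK G X) :
    ∃ C : ℝ, 0 ≤ C ∧ ∀ x, a.rowSum x ≤ C := by
  obtain ⟨T, hT⟩ := h
  refine ⟨∑ x ∈ T, a.rowSum x, Finset.sum_nonneg fun x _ => a.rowSum_nonneg x, fun x => ?_⟩
  obtain ⟨g, hg⟩ := hT x
  rw [← a.rowSum_smul g x]
  exact Finset.single_le_sum (fun y _ => a.rowSum_nonneg y) hg

end Bounded

variable {ι : Type*} {D : ι → Type*} {b : ∀ v, D v} {G : Type*} [Group G]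
  [∀ v, MulAction G (D v)] [RProd.BaseFix b G]

/-! ### Product kernels -/

open Classical in
theorem ker_one' {X : Type*} [MulAction G X] :
    (1 : HK G X).ker = fun x y => if x = y then 1 else 0 := by
  funext x y
  exact ker_one x y

theorem kAdm {k : ∀ v, HK G (D v)} (hk : {v | k v ≠ 1}.Finite) :
    RProd.KAdm (R := ℂ) (fun v => (k v).ker) where
  row v x := (k v).finite_row x
  col v y := (k v).finite_col y
  ind := hk.subset fun v hv h => hv (by
    classical
    rw [show k v = 1 from h, ker_one'])

/-- **The product kernel.** -/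
def kp (k : ∀ v, HK G (D v)) (hk : {v | k v ≠ 1}.Finite) : HK G (RProd D b) :=
  of (RProd.kprod fun v => (k v).ker)
    (fun g x y => RProd.kprod_smul (fun g v x y => (k v).ker_smul_smul g x y) g x y)
    (fun x => (kAdm hk).finite_row x) (fun y => (kAdm hk).finite_col y)

@[simp]
theorem ker_kp (k : ∀ v, HK G (D v)) (hk : {v | k v ≠ 1}.Finite) (x y : RProd D b) :
    (kp k hk : HK G (RProd D b)).ker x y = ∏ᶠ v, (k v).ker (x v) (y v) := ker_of _ _ _ _ _ _

theorem ker_kp_ne_zero {k : ∀ v, HK G (D v)} {hk : {v | k v ≠ 1}.Finite} {x y : RProd D b}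
    (h : (kp k hk : HK G (RProd D b)).ker x y ≠ 0) (v : ι) : (k v).ker (x v) (y v) ≠ 0 := by
  rw [ker_kp] at h
  exact (kAdm hk).ne_zero h v

theorem finite_mul_ne_one {k k' : ∀ v, HK G (D v)} (hk : {v | k v ≠ 1}.Finite)
    (hk' : {v | k' v ≠ 1}.Finite) : {v | (k * k') v ≠ 1}.Finite :=
  (hk.union hk').subset fun v hv => by
    by_contra h
    simp only [mem_union, mem_ofPred_eq, not_or, not_not] at h
    exact hv (by rw [Pi.mul_apply, h.1, h.2, mul_one])

theorem kp_mul {k k' : ∀ v, HK G (D v)} (hk : {v | k v ≠ 1}.Finite)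
    (hk' : {v | k' v ≠ 1}.Finite) :
    (kp k hk * kp k' hk' : HK G (RProd D b)) = kp (k * k') (finite_mul_ne_one hk hk') := by
  ext x z
  rw [ker_mul, ker_kp]
  have h := RProd.kprod_comp (kAdm hk) (kAdm hk') x z
  unfold RProd.dcomp at h
  simp only [ker_kp]
  refine h.trans (finprod_congr fun v => ?_)
  rw [Pi.mul_apply, ker_mul]

theorem kp_congr {k k' : ∀ v, HK G (D v)} {hk : {v | k v ≠ 1}.Finite}
    {hk' : {v | k' v ≠ 1}.Finite} (h : ∀ v, k v = k' v) :
    (kp k hk : HK G (RProd D b)) = kp k' hk' := by
  obtain rfl : k = k' := funext h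
  rfl

theorem kp_one (hk : {v | (1 : ∀ v, HK G (D v)) v ≠ 1}.Finite) :
    (kp 1 hk : HK G (RProd D b)) = 1 := by
  classical
  ext x y
  rw [ker_kp, ker_one]
  simp only [Pi.one_apply, ker_one]
  by_cases h : x = y
  · subst h
    rw [if_pos rfl]
    simp
  · rw [if_neg h]
    obtain ⟨v, hv⟩ : ∃ v, x v ≠ y v := by
      by_contra hcon
      push Not at hcon
      exact h (RProd.ext' hcon)
    have h1 : (kp (1 : ∀ v, HK G (D v)) hk : HK G (RProd D b)).ker x y = 0 := by
      by_contra h0
      refine ker_kp_ne_zero h0 v ?_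
      rw [Pi.one_apply, ker_one, if_neg hv]
    rw [ker_kp] at h1
    simpa only [Pi.one_apply, ker_one] using h1

theorem star_kp {k : ∀ v, HK G (D v)} (hk : {v | k v ≠ 1}.Finite)
    (hk' : {v | (fun v => star (k v)) v ≠ 1}.Finite) :
    star (kp k hk : HK G (RProd D b)) = kp (fun v => star (k v)) hk' := by
  ext x y
  rw [ker_star, ker_kp, ker_kp]
  simp only [ker_star]
  have h1 := (kAdm hk).base_eq y x
  rw [finprod_eq_prod _ h1, finprod_eq_prod_of_mulSupport_subset (s := h1.toFinset), star_prod]
  rw [Finite.coe_toFinset]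
  intro v hv h2
  refine hv ?_
  show star ((k v).ker (y v) (x v)) = 1
  rw [show (k v).ker (y v) (x v) = 1 from h2, star_one]

theorem finite_one : {v | (1 : ∀ v, HK G (D v)) v ≠ 1}.Finite := by simp

/-- Product kernels commute if they commute at every place. -/
theorem commute_kp {k k' : ∀ v, HK G (D v)} (hk : {v | k v ≠ 1}.Finite)
    (hk' : {v | k' v ≠ 1}.Finite) (h : ∀ v, Commute (k v) (k' v)) :
    Commute (kp k hk : HK G (RProd D b)) (kp k' hk') := by
  show kp k hk * kp k' hk' = kp k' hk' * kp k hk
  rw [kp_mul, kp_mul]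
  exact kp_congr fun v => h v

/-! ### One factor -/

section Single

variable [DecidableEq ι]

theorem finite_update (v : ι) (a : HK G (D v)) {k : ∀ v, HK G (D v)} (hk : {v | k v ≠ 1}.Finite) :
    {w | (Function.update k v a) w ≠ 1}.Finite :=
  (hk.union (finite_singleton v)).subset fun w hw => by
    by_contra h
    simp only [mem_union, mem_ofPred_eq, not_or, not_not, mem_singleton_iff] at h
    exact hw (by rw [Function.update_of_ne h.2, h.1])

/-- the kernel `a` at the place `v`. -/
def singleFun (v : ι) (a : HK G (D v)) : HK G (RProd D b) :=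
  kp (Function.update 1 v a) (finite_update v a finite_one)

theorem ker_singleFun_of_ne {v : ι} (a : HK G (D v)) {x y : RProd D b} {w : ι} (hw : w ≠ v)
    (h : x w ≠ y w) : (singleFun v a : HK G (RProd D b)).ker x y = 0 := by
  classical
  by_contra h0
  refine ker_kp_ne_zero h0 w ?_
  rw [Function.update_of_ne hw, Pi.one_apply, ker_one, if_neg h]

theorem ker_singleFun_of_eq {v : ι} (a : HK G (D v)) {x y : RProd D b}
    (h : ∀ w ≠ v, x w = y w) : (singleFun v a : HK G (RProd D b)).ker x y = a.ker (x v) (y v) := by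
  classical
  rw [singleFun, ker_kp, finprod_eq_single _ v]
  · rw [Function.update_self]
  · intro w hw
    rw [Function.update_of_ne hw, Pi.one_apply, ker_one, if_pos (h w hw)]

open Classical in
theorem ker_singleFun {v : ι} (a : HK G (D v)) (x y : RProd D b) :
    (singleFun v a : HK G (RProd D b)).ker x y =
      if ∀ w ≠ v, x w = y w then a.ker (x v) (y v) else 0 := by
  split_ifs with h
  · exact ker_singleFun_of_eq a h
  · push Not at h
    obtain ⟨w, hw, h⟩ := h
    exact ker_singleFun_of_ne a hw h

variable (b) in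
/-- **The kernel `a` at the place `v`, identity at the other places.** -/
def single (v : ι) : HK G (D v) →ₐ[ℂ] HK G (RProd D b) :=
  AlgHom.ofLinearMap
    { toFun := singleFun v
      map_add' := fun a a' => by
        classical
        ext x y
        rw [ker_add, ker_singleFun, ker_singleFun, ker_singleFun]
        split_ifs
        · rw [ker_add]
        · rw [add_zero]
      map_smul' := fun c a => by
        classical
        ext x y
        rw [RingHom.id_apply, ker_smul, ker_singleFun, ker_singleFun]
        split_ifs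
        · rw [ker_smul]
        · rw [mul_zero] }
    (by
      show singleFun v 1 = 1
      rw [singleFun]
      refine (kp_congr (k' := 1) (hk' := finite_one) fun w => ?_).trans (kp_one _)
      by_cases h : w = v
      · subst h
        rw [Function.update_self, Pi.one_apply]
      · rw [Function.update_of_ne h])
    (fun a a' => by
      show singleFun v (a * a') = singleFun v a * singleFun v a'
      rw [singleFun, singleFun, singleFun, kp_mul]
      refine kp_congr fun w => ?_
      rw [Pi.mul_apply]
      by_cases h : w = v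
      · subst h
        rw [Function.update_self, Function.update_self, Function.update_self]
      · rw [Function.update_of_ne h, Function.update_of_ne h, Function.update_of_ne h, Pi.one_apply,
          mul_one])

theorem single_eq_kp (v : ι) (a : HK G (D v)) :
    single b v a = kp (Function.update 1 v a) (finite_update v a finite_one) := rfl

open Classical in
theorem ker_single {v : ι} (a : HK G (D v)) (x y : RProd D b) :
    (single b v a).ker x y = if ∀ w ≠ v, x w = y w then a.ker (x v) (y v) else 0 :=
  ker_singleFun a x y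

theorem ker_single_of_eq {v : ι} (a : HK G (D v)) {x y : RProd D b}
    (h : ∀ w ≠ v, x w = y w) : (single b v a).ker x y = a.ker (x v) (y v) :=
  ker_singleFun_of_eq a h

theorem eq_of_ker_single_ne_zero {v : ι} {a : HK G (D v)} {x y : RProd D b}
    (h : (single b v a).ker x y ≠ 0) : (∀ w ≠ v, x w = y w) ∧ a.ker (x v) (y v) ≠ 0 := by
  classical
  rw [ker_single] at h
  split_ifs at h with h'
  · exact ⟨h', h⟩
  · exact absurd rfl h

theorem star_single (v : ι) (a : HK G (D v)) : star (single b v a) = single b v (star a) := by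
  classical
  ext x y
  rw [ker_star, ker_single, ker_single, ker_star]
  have h : (∀ w ≠ v, y w = x w) ↔ ∀ w ≠ v, x w = y w :=
    ⟨fun h w hw => (h w hw).symm, fun h w hw => (h w hw).symm⟩
  by_cases h' : ∀ w ≠ v, x w = y w
  · rw [if_pos h', if_pos (h.2 h')]
  · rw [if_neg h', if_neg fun h'' => h' (h.1 h''), star_zero]

/-- **Kernels at different places commute.** -/
theorem commute_single {v w : ι} (h : v ≠ w) (a : HK G (D v)) (a' : HK G (D w)) :
    Commute (single b v a) (single b w a') := by
  show single b v a * single b w a' = single b w a' * single b v a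
  rw [single_eq_kp, single_eq_kp, kp_mul, kp_mul]
  refine kp_congr fun u => ?_
  rw [Pi.mul_apply, Pi.mul_apply]
  by_cases hv : u = v
  · subst hv
    rw [Function.update_self, Function.update_of_ne h, Pi.one_apply, mul_one, one_mul]
  · rw [Function.update_of_ne hv, Pi.one_apply, mul_one, one_mul]

/-- A kernel at one place commutes with a product kernel which is trivial (or commutes) there. -/
theorem commute_single_kp {v : ι} (a : HK G (D v)) {k : ∀ v, HK G (D v)}
    (hk : {v | k v ≠ 1}.Finite) (h : Commute a (k v)) : Commute (single b v a) (kp k hk) := by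
  show single b v a * kp k hk = kp k hk * single b v a
  rw [single_eq_kp, kp_mul, kp_mul]
  refine kp_congr fun u => ?_
  rw [Pi.mul_apply, Pi.mul_apply]
  by_cases hv : u = v
  · subst hv
    rw [Function.update_self]
    exact h
  · rw [Function.update_of_ne hv, Pi.one_apply, mul_one, one_mul]

theorem single_mul_kp {v : ι} (a : HK G (D v)) {k : ∀ v, HK G (D v)}
    (hk : {v | k v ≠ 1}.Finite) :
    single b v a * kp k hk = kp (Function.update k v (a * k v)) (finite_update v _ hk) := by
  rw [single_eq_kp, kp_mul]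
  refine kp_congr fun u => ?_
  rw [Pi.mul_apply]
  by_cases hv : u = v
  · subst hv
    rw [Function.update_self, Function.update_self]
  · rw [Function.update_of_ne hv, Function.update_of_ne hv, Pi.one_apply, one_mul]

/-- A product kernel as a product over a finite set. -/
theorem kp_insert {v : ι} {k : ∀ v, HK G (D v)} (hk : {v | k v ≠ 1}.Finite) :
    (kp k hk : HK G (RProd D b)) =
      single b v (k v) * kp (Function.update k v 1) (finite_update v _ hk) := by
  rw [single_mul_kp]
  refine kp_congr fun u => ?_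
  by_cases hv : u = v
  · subst hv
    rw [Function.update_self, Function.update_self, mul_one]
  · rw [Function.update_of_ne hv, Function.update_of_ne hv]

/-! ### Changing one coordinate -/

/-- The point `x` with the coordinate at `v` replaced by `y`. -/
def upd (x : RProd D b) (v : ι) (y : D v) : RProd D b :=
  ⟨Function.update x.val v y, (x.fin.union (finite_singleton v)).subset fun w hw => by
    by_contra h
    simp only [mem_union, mem_ofPred_eq, not_or, not_not, mem_singleton_iff] at h
    exact hw (by rw [Function.update_of_ne h.2, h.1])⟩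

@[simp] theorem upd_self (x : RProd D b) (v : ι) (y : D v) : (upd x v y) v = y :=
  Function.update_self v y x.val

theorem upd_of_ne (x : RProd D b) {v w : ι} (y : D v) (h : w ≠ v) : (upd x v y) w = x w :=
  Function.update_of_ne h y x.val

theorem upd_eq {x z : RProd D b} {v : ι} (h : ∀ w ≠ v, x w = z w) : upd x v (z v) = z := by
  refine RProd.ext' fun w => ?_
  by_cases hw : w = v
  · subst hw; rw [upd_self]
  · rw [upd_of_ne _ _ hw, h w hw]

theorem upd_injective (x : RProd D b) (v : ι) : Injective (upd x v) := fun y y' h => by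
  rw [← upd_self x v y, h, upd_self]

theorem smul_upd (g : G) (x : RProd D b) (v : ι) (y : D v) :
    g • upd x v y = upd (g • x) v (g • y) := by
  refine RProd.ext' fun w => ?_
  rw [RProd.smul_apply]
  by_cases hw : w = v
  · subst hw; rw [upd_self, upd_self]
  · rw [upd_of_ne _ _ hw, upd_of_ne _ _ hw, RProd.smul_apply]

/-- **The operator of a kernel at one place.** -/
theorem act_single_apply {E : Type*} [AddCommGroup E] [Module ℂ E] (v : ι) (a : HK G (D v))
    (f : RProd D b → E) (x : RProd D b) :
    (single b v a).act f x = a.act (fun y => f (upd x v y)) (x v) := by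
  classical
  rw [act_apply a, act_apply_sum (single b v a) f x
    (s := ((a.finite_row (x v)).toFinset).map ⟨upd x v, upd_injective x v⟩), Finset.sum_map]
  · refine Finset.sum_congr rfl fun y _ => ?_
    show (single b v a).ker x (upd x v y) • f (upd x v y) = _
    rw [ker_single_of_eq a fun w hw => (upd_of_ne x y hw).symm, upd_self]
  · intro z hz
    obtain ⟨h1, h2⟩ := eq_of_ker_single_ne_zero hz
    rw [Finset.mem_map]
    exact ⟨z v, by simpa using h2, upd_eq h1⟩

theorem rowSum_single (v : ι) (a : HK G (D v)) (x : RProd D b) :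
    (single b v a).rowSum x = a.rowSum (x v) := by
  classical
  unfold rowSum
  rw [finsum_eq_sum_of_support_subset
    (s := ((a.finite_row (x v)).toFinset).map ⟨upd x v, upd_injective x v⟩), Finset.sum_map,
    finsum_eq_sum_of_support_subset (s := (a.finite_row (x v)).toFinset)]
  · refine Finset.sum_congr rfl fun y _ => ?_
    show ‖(single b v a).ker x (upd x v y)‖ = _
    rw [ker_single_of_eq a fun w hw => (upd_of_ne x y hw).symm, upd_self]
  · intro y hy
    rw [Finite.coe_toFinset]
    exact fun h => hy (by simp [h])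
  · intro z hz
    have hz' : (single b v a).ker x z ≠ 0 := fun h => hz (by simp [h])
    obtain ⟨h1, h2⟩ := eq_of_ker_single_ne_zero hz'
    rw [Finset.mem_coe, Finset.mem_map]
    exact ⟨z v, by simpa using h2, upd_eq h1⟩

end Single

/-! ### Families of local groups -/

section Fam

variable {H : ι → Type*} [∀ v, Group (H v)] [∀ v, MulAction (H v) (D v)]
  (φ : ∀ v, HK (H v) (D v) →ₐ[ℂ] HK G (D v))

include φ in
theorem finite_fam {k : ∀ v, HK (H v) (D v)} (hk : {v | k v ≠ 1}.Finite) :
    {v | (fun v => φ v (k v)) v ≠ 1}.Finite :=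
  hk.subset fun v hv h => hv (by
    show φ v (k v) = 1
    rw [show k v = 1 from h, map_one])

/-- The product kernel of a family of kernels for the local groups `H v`. -/
def kpf (k : ∀ v, HK (H v) (D v)) (hk : {v | k v ≠ 1}.Finite) : HK G (RProd D b) :=
  kp (fun v => φ v (k v)) (finite_fam φ hk)

theorem ker_kpf (hφ : ∀ v (a : HK (H v) (D v)) x y, (φ v a).ker x y = a.ker x y)
    (k : ∀ v, HK (H v) (D v)) (hk : {v | k v ≠ 1}.Finite) (x y : RProd D b) :
    (kpf φ k hk).ker x y = ∏ᶠ v, (k v).ker (x v) (y v) := by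
  rw [kpf, ker_kp]
  exact finprod_congr fun v => hφ v _ _ _

theorem ker_kpf_ne_zero (hφ : ∀ v (a : HK (H v) (D v)) x y, (φ v a).ker x y = a.ker x y)
    (k : ∀ v, HK (H v) (D v)) (hk : {v | k v ≠ 1}.Finite) {x y : RProd D b}
    (h : (kpf φ k hk).ker x y ≠ 0) (v : ι) : (k v).ker (x v) (y v) ≠ 0 := by
  rw [← hφ]
  exact ker_kp_ne_zero (k := fun v => φ v (k v)) (hk := finite_fam φ hk) h v

theorem kpf_congr {k k' : ∀ v, HK (H v) (D v)} {hk : {v | k v ≠ 1}.Finite}
    {hk' : {v | k' v ≠ 1}.Finite} (h : ∀ v, k v = k' v) :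
    (kpf φ k hk : HK G (RProd D b)) = kpf φ k' hk' := by
  obtain rfl : k = k' := funext h
  rfl

theorem finite_mulf {k k' : ∀ v, HK (H v) (D v)} (hk : {v | k v ≠ 1}.Finite)
    (hk' : {v | k' v ≠ 1}.Finite) : {v | (fun v => k v * k' v) v ≠ 1}.Finite :=
  (hk.union hk').subset fun v hv => by
    by_contra h
    simp only [mem_union, mem_ofPred_eq, not_or, not_not] at h
    refine hv ?_
    show k v * k' v = 1
    rw [h.1, h.2, mul_one]

theorem kpf_mul {k k' : ∀ v, HK (H v) (D v)} (hk : {v | k v ≠ 1}.Finite)
    (hk' : {v | k' v ≠ 1}.Finite) :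
    (kpf φ k hk * kpf φ k' hk' : HK G (RProd D b)) =
      kpf φ (fun v => k v * k' v) (finite_mulf hk hk') := by
  rw [kpf, kpf, kp_mul]
  exact kp_congr fun v => (map_mul (φ v) _ _).symm

theorem finite_onef : {v | (fun v => (1 : HK (H v) (D v))) v ≠ 1}.Finite := by simp

theorem kpf_one : (kpf φ (fun _ => 1) finite_onef : HK G (RProd D b)) = 1 :=
  (kp_congr (k' := 1) (hk' := finite_one) fun v => map_one (φ v)).trans (kp_one _)

theorem finite_starf {k : ∀ v, HK (H v) (D v)} (hk : {v | k v ≠ 1}.Finite) :
    {v | (fun v => star (k v)) v ≠ 1}.Finite :=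
  hk.subset fun v hv h => hv (by
    show star (k v) = 1
    rw [show k v = 1 from h, star_one])

theorem star_kpf (hφ : ∀ v (a : HK (H v) (D v)), star (φ v a) = φ v (star a))
    {k : ∀ v, HK (H v) (D v)} (hk : {v | k v ≠ 1}.Finite) :
    star (kpf φ k hk : HK G (RProd D b)) = kpf φ (fun v => star (k v)) (finite_starf hk) := by
  rw [kpf, star_kp _ (finite_starf (H := fun _ => G) (finite_fam φ hk))]
  exact kp_congr fun v => hφ v _

theorem commute_kpf {k k' : ∀ v, HK (H v) (D v)} (hk : {v | k v ≠ 1}.Finite)
    (hk' : {v | k' v ≠ 1}.Finite) (h : ∀ v, Commute (k v) (k' v)) :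
    Commute (kpf φ k hk : HK G (RProd D b)) (kpf φ k' hk') :=
  commute_kp _ _ fun v => (h v).map (φ v)

variable [DecidableEq ι]

theorem finite_updatef (v : ι) (a : HK (H v) (D v)) {k : ∀ v, HK (H v) (D v)}
    (hk : {v | k v ≠ 1}.Finite) : {w | (Function.update k v a) w ≠ 1}.Finite :=
  (hk.union (finite_singleton v)).subset fun w hw => by
    by_contra h
    simp only [mem_union, mem_ofPred_eq, not_or, not_not, mem_singleton_iff] at h
    exact hw (by rw [Function.update_of_ne h.2, h.1])

theorem single_eq_kpf (v : ι) (a : HK (H v) (D v)) :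
    single b v (φ v a) = kpf φ (Function.update (fun _ => 1) v a) (finite_updatef v a finite_onef) := by
  rw [single_eq_kp, kpf]
  refine kp_congr fun w => ?_
  by_cases h : w = v
  · subst h
    rw [Function.update_self, Function.update_self]
  · rw [Function.update_of_ne h, Function.update_of_ne h, Pi.one_apply, map_one]

theorem single_mul_kpf {v : ι} (a : HK (H v) (D v)) {k : ∀ v, HK (H v) (D v)}
    (hk : {v | k v ≠ 1}.Finite) :
    single b v (φ v a) * kpf φ k hk =
      kpf φ (Function.update k v (a * k v)) (finite_updatef v _ hk) := by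
  rw [kpf, single_mul_kp, kpf]
  refine kp_congr fun w => ?_
  by_cases h : w = v
  · subst h
    rw [Function.update_self, Function.update_self, map_mul]
  · rw [Function.update_of_ne h, Function.update_of_ne h]

theorem commute_single_kpf {v : ι} (a : HK (H v) (D v)) {k : ∀ v, HK (H v) (D v)}
    (hk : {v | k v ≠ 1}.Finite) (h : Commute a (k v)) :
    Commute (single b v (φ v a)) (kpf φ k hk) := commute_single_kp _ _ (h.map _)

end Fam

/-! ### Transport -/

section Transport

variable {κ : Type*} {E : κ → Type*} {c : ∀ w, E w} {G' : Type*} [Group G']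
  [∀ w, MulAction G' (E w)] [RProd.BaseFix c G']

theorem map_kp {t : RProd D b ≃ RProd E c}
    (ht : ∀ g' : G', ∃ g : G, ∀ x, t (g • x) = g' • t x) (σ : ι ≃ κ)
    (e : ∀ v, D v ≃ E (σ v)) (hte : ∀ x v, t x (σ v) = e v (x v))
    (k : ∀ v, HK G (D v)) (hk : {v | k v ≠ 1}.Finite)
    (k' : ∀ w, HK G' (E w)) (hk' : {w | k' w ≠ 1}.Finite)
    (hkk : ∀ v x y, (k' (σ v)).ker (e v x) (e v y) = (k v).ker x y) :
    map t ht (kp k hk) = kp k' hk' := by
  ext x y
  rw [ker_map, ker_kp, ker_kp, ← finprod_comp_equiv σ]
  refine finprod_congr fun v => ?_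
  rw [← hkk, ← hte, ← hte, Equiv.apply_symm_apply, Equiv.apply_symm_apply]

theorem map_single [DecidableEq ι] [DecidableEq κ] {t : RProd D b ≃ RProd E c}
    (ht : ∀ g' : G', ∃ g : G, ∀ x, t (g • x) = g' • t x) (σ : ι ≃ κ)
    (e : ∀ v, D v ≃ E (σ v)) (hte : ∀ x v, t x (σ v) = e v (x v))
    (v : ι) (a : HK G (D v)) (a' : HK G' (E (σ v)))
    (ha : ∀ x y, a'.ker (e v x) (e v y) = a.ker x y) :
    map t ht (single b v a) = single c (σ v) a' := by
  classical
  ext x y
  rw [ker_map, ker_single, ker_single]
  have h1 : ∀ z : RProd E c, ∀ w, z (σ w) = e w ((t.symm z) w) := fun z w => by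
    rw [← hte, Equiv.apply_symm_apply]
  have h : (∀ w ≠ σ v, x w = y w) ↔ ∀ w ≠ v, (t.symm x) w = (t.symm y) w := by
    constructor
    · intro h w hw
      have h2 := h (σ w) fun h3 => hw (σ.injective h3)
      rw [h1, h1] at h2
      exact (e w).injective h2
    · intro h w hw
      obtain ⟨w, rfl⟩ := σ.surjective w
      rw [h1, h1, h w fun h3 => hw (congrArg σ h3)]
  by_cases h' : ∀ w ≠ σ v, x w = y w
  · rw [if_pos h', if_pos (h.1 h'), h1, h1, ha]
  · rw [if_neg h', if_neg fun h'' => h' (h.2 h'')]

theorem map_kpf {H : ι → Type*} [∀ v, Group (H v)] [∀ v, MulAction (H v) (D v)]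
    (φ : ∀ v, HK (H v) (D v) →ₐ[ℂ] HK G (D v))
    (hφ : ∀ v (a : HK (H v) (D v)) x y, (φ v a).ker x y = a.ker x y)
    {H' : κ → Type*} [∀ w, Group (H' w)] [∀ w, MulAction (H' w) (E w)]
    (φ' : ∀ w, HK (H' w) (E w) →ₐ[ℂ] HK G' (E w))
    (hφ' : ∀ w (a : HK (H' w) (E w)) x y, (φ' w a).ker x y = a.ker x y)
    {t : RProd D b ≃ RProd E c}
    (ht : ∀ g' : G', ∃ g : G, ∀ x, t (g • x) = g' • t x) (σ : ι ≃ κ)
    (e : ∀ v, D v ≃ E (σ v)) (hte : ∀ x v, t x (σ v) = e v (x v))
    (k : ∀ v, HK (H v) (D v)) (hk : {v | k v ≠ 1}.Finite)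
    (k' : ∀ w, HK (H' w) (E w)) (hk' : {w | k' w ≠ 1}.Finite)
    (hkk : ∀ v x y, (k' (σ v)).ker (e v x) (e v y) = (k v).ker x y) :
    map t ht (kpf φ k hk) = kpf φ' k' hk' :=
  map_kp ht σ e hte _ _ _ _ fun v x y => by rw [hφ, hφ', hkk]

end Transport

end Fermat.Agent.LT.HK

end
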