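import Fermat.Agent.LT.HK.Iwahori

/-!
# The spherical Hecke operator at one place as a Hecke kernel

`v` a valuation on a field `F`, `𝔡 : Datum v`, `Vx v = Cos (GLO v)`.

* `𝔡.tH : HK (GL (Fin 2) F) (Vx v)`: indicator function of the neighbours, self-adjoint;
* `act_tH_mk`: the classical formula;
* `cH_act_comp_pr`: `C` on functions of the vertices is `T`; `eH_act_eq_iff`.
-/

set_option autoImplicit false

open Matrix

noncomputable section

namespace Fermat.Agent.LT.Iwa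

open Fermat.Agent.LT.Lvl

variable {F : Type*} [Field F] {Γ₀ : Type*} [LinearOrderedCommGroupWithZero Γ₀]
  {v : Valuation F Γ₀}

namespace Datum

variable (𝔡 : Datum v)

/-- The spherical Hecke operator. -/
def tH : HK (GL (Fin 2) F) (Vx v) := by
  classical
  exact HK.of (fun x y => if y ∈ 𝔡.nbv x then 1 else 0)
    (fun g x y => by simp only [smul_mem_nbv])
    (fun x => (𝔡.nbv x).finite_toSet.subset fun y hy => by
      by_contra h
      exact hy (if_neg h))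
    (fun y => (𝔡.nbv y).finite_toSet.subset fun x hx => by
      by_contra h
      exact hx (if_neg fun h' => h (𝔡.mem_nbv_comm.mp h')))

open Classical in
theorem ker_tH (x y : Vx v) : 𝔡.tH.ker x y = if y ∈ 𝔡.nbv x then 1 else 0 :=
  HK.ker_of _ _ _ _ _ _

theorem star_tH : star 𝔡.tH = 𝔡.tH := by
  ext x y
  rw [HK.ker_star, ker_tH, ker_tH]
  by_cases h : y ∈ 𝔡.nbv x
  · rw [if_pos h, if_pos (𝔡.mem_nbv_comm.mp h), star_one]
  · rw [if_neg h, if_neg fun h' => h (𝔡.mem_nbv_comm.mp h'), star_zero]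

theorem tH_eq_tH (𝔡' : Datum v) : 𝔡.tH = 𝔡'.tH := by
  ext x y
  rw [ker_tH, ker_tH, 𝔡.nbv_eq_nbv 𝔡']

section Act

variable {M : Type*} [AddCommGroup M] [Module ℂ M]

theorem act_tH (f : Vx v → M) : 𝔡.tH.act f = 𝔡.opT f := by
  funext x
  rw [HK.act_apply_sum _ _ _ (s := 𝔡.nbv x), opT_apply]
  · exact Finset.sum_congr rfl fun y hy => by rw [ker_tH, if_pos hy, one_smul]
  · intro y hy
    by_contra h
    rw [ker_tH, if_neg h] at hy
    exact hy rfl

/-- **The classical formula of the Hecke operator.** -/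
theorem act_tH_mk (f : Vx v → M) (g : GL (Fin 2) F) :
    𝔡.tH.act f (Cos.mk (GLO v) g) =
      ∑ b ∈ 𝔡.B, f (Cos.mk (GLO v) (g * 𝔡.nt 1 b)) + f (Cos.mk (GLO v) (g * 𝔡.dg)) := by
  rw [act_tH, opT_apply]
  exact 𝔡.sum_nbv_mk f g

/-- the functions fixed by `e` -/
theorem act_eH_eq_iff (f : D v → M) : 𝔡.eH.act f = f ↔ ∃ f₀ : Vx v → M, f = f₀ ∘ pr := by
  constructor
  · intro h
    rw [act_eH] at h
    exact 𝔡.exists_comp_pr h
  · rintro ⟨f₀, rfl⟩
    rw [act_eH, opE_comp_pr]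

/-- **On functions of the vertices `C` is `T`.** -/
theorem act_cH_comp_pr (f : Vx v → M) : 𝔡.cH.act (f ∘ pr) = (𝔡.tH.act f) ∘ pr := by
  have h1 : 𝔡.eH.act (f ∘ pr) = f ∘ pr := by rw [act_eH, opE_comp_pr]
  have h2 : 𝔡.cH.act (f ∘ pr) = (𝔡.cH * 𝔡.eH).act (f ∘ pr) := by
    rw [HK.act_mul, LinearMap.comp_apply, h1]
  have h3 : 𝔡.cH * 𝔡.eH = ((𝔡.q : ℂ) + 1) • (𝔡.eH * 𝔡.wH * 𝔡.eH) := 𝔡.iwaRelH.opC_mul_e
  rw [h2, h3, HK.act_smul, HK.act_mul, HK.act_mul, LinearMap.smul_apply, LinearMap.comp_apply,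
    LinearMap.comp_apply, h1, act_wH, act_eH, opE_opW_comp_pr, smul_smul,
    mul_inv_cancel₀ 𝔡.q_add_one_ne, one_smul, act_tH]

end Act

/-! ### Transport -/

section Lift

variable {F' : Type*} [Field F'] {v' : Valuation F' Γ₀} {f : F ≃+* F'}
  (hv : ∀ x, v' (f x) = v x) (𝔡' : Datum v')

include hv

theorem ker_tH_lift {ψ : Vx v → Vx v'} (hψ : IsLift f ψ) (x y : Vx v) :
    𝔡'.tH.ker (ψ x) (ψ y) = 𝔡.tH.ker x y := by
  rw [ker_tH, ker_tH]
  have h := Datum.mem_nbv_lift hv 𝔡 𝔡' hψ (x := x) (y := y)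
  by_cases h' : y ∈ 𝔡.nbv x
  · rw [if_pos h', if_pos (h.mpr h')]
  · rw [if_neg h', if_neg (fun h'' => h' (h.mp h''))]

theorem ker_symm_tH {t : Vx v ≃ Vx v'} (ht : IsLift f t) (x y : Vx v') :
    𝔡.tH.ker (t.symm x) (t.symm y) = 𝔡'.tH.ker x y := by
  rw [← ker_tH_lift 𝔡 hv 𝔡' ht, Equiv.apply_symm_apply, Equiv.apply_symm_apply]

end Lift

end Datum

end Fermat.Agent.LT.Iwa

end
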