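import Fermat.Agent.LT.HK.Sph
import Fermat.Agent.LT.HK.Prod
import Fermat.Agent.LT.Level.Change

/-!
# Hecke kernels at one place of `D U`

* `toPG : HK (GL (Fin 2) F) X →ₐ[ℂ] HK (PG F) X`;
* `loc v : HK (GL (Fin 2) F_v) (Cos H) →ₐ[ℂ] HK (GL (Fin 2) F) (Cos H)`;
* `atPl U v : HK (GL (Fin 2) F_v) (Dv U v) →ₐ[ℂ] HK (PG F) (D U)`: the kernel `a` at `v`, the
  identity at all other places; `ker_atPl`, `star_atPl`, `commute_atPl`, `act_atPl`;
* `castHK`: transport along an equality of groups;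
* `eAt`, `wAt`, `uAt`, `cAt`, `tAt`: the Iwahori-Hecke and spherical kernels at one place.
-/

set_option autoImplicit false

open Matrix NumberField IsDedekindDomain

noncomputable section

namespace Fermat.Agent.LT

namespace HK

open Fermat.Agent.LT.Lvl

/-! ### Change of the group -/

section ToPG

variable {F X : Type*} [Field F] [MulAction (GL (Fin 2) F) X] [TrivScalar F X]

variable (F X) in
/-- Hecke kernels for `GL₂(F)` are Hecke kernels for `PGL₂(F)`. -/
def toPG : HK (GL (Fin 2) F) X →ₐ[ℂ] HK (PG F) X :=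
  res fun g' => by
    obtain ⟨g, rfl⟩ := QuotientGroup.mk_surjective g'
    exact ⟨g, fun x => (pg_smul g x).symm⟩

@[simp] theorem ker_toPG (a : HK (GL (Fin 2) F) X) (x y : X) :
    (toPG F X a).ker x y = a.ker x y := ker_res _ _ _ _

theorem star_toPG (a : HK (GL (Fin 2) F) X) : star (toPG F X a) = toPG F X (star a) :=
  (star_res _ _).symm

theorem act_toPG {E : Type*} [AddCommGroup E] [Module ℂ E] (a : HK (GL (Fin 2) F) X)
    (f : X → E) : (toPG F X a).act f = a.act f := act_res _ _ _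

/-- a kernel for `PGL₂(F)` is a kernel for `GL₂(F)` -/
theorem ker_gl_smul (a : HK (PG F) X) (g : GL (Fin 2) F) (x y : X) :
    a.ker (g • x) (g • y) = a.ker x y := a.ker_smul_smul (QuotientGroup.mk g) x y

theorem act_gl_smul {E : Type*} [AddCommGroup E] [Module ℂ E] (a : HK (PG F) X) (f : X → E)
    (g : GL (Fin 2) F) (x : X) : a.act f (g • x) = a.act (fun y => f (g • y)) x :=
  a.act_smul_apply f (QuotientGroup.mk g) x

end ToPG

section Loc

variable {F : Type*} [Field F] [NumberField F] (v : HeightOneSpectrum (𝓞 F))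
  (H : Subgroup (GL (Fin 2) (v.adicCompletion F)))

/-- Hecke kernels for `GL₂(F_v)` are Hecke kernels for `GL₂(F)`. -/
def loc : HK (GL (Fin 2) (v.adicCompletion F)) (Cos H) →ₐ[ℂ] HK (GL (Fin 2) F) (Cos H) :=
  res fun g' => ⟨gmap v g', fun _ => rfl⟩

@[simp] theorem ker_loc (a : HK (GL (Fin 2) (v.adicCompletion F)) (Cos H)) (x y : Cos H) :
    (loc v H a).ker x y = a.ker x y := ker_res _ _ _ _

theorem star_loc (a : HK (GL (Fin 2) (v.adicCompletion F)) (Cos H)) :
    star (loc v H a) = loc v H (star a) := (star_res _ _).symm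

theorem act_loc {E : Type*} [AddCommGroup E] [Module ℂ E]
    (a : HK (GL (Fin 2) (v.adicCompletion F)) (Cos H)) (f : Cos H → E) :
    (loc v H a).act f = a.act f := act_res _ _ _

end Loc

/-! ### One place of `D U` -/

section AtPl

variable {F : Type*} [Field F] [NumberField F] (U : Lev F)

/-- the local algebra at `v` -/
abbrev LocH (U : Lev F) (v : HeightOneSpectrum (𝓞 F)) : Type _ :=
  HK (GL (Fin 2) (v.adicCompletion F)) (Dv U v)

open Classical in
/-- **The kernel `a` at the place `v`.** -/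
def atPl (v : HeightOneSpectrum (𝓞 F)) : LocH U v →ₐ[ℂ] HK (PG F) (D U) :=
  (toPG F (D U)).comp ((single (base U) v).comp (loc v (U.U v)))

variable {U}

open Classical in
theorem ker_atPl {v : HeightOneSpectrum (𝓞 F)} (a : LocH U v) (x y : D U) :
    (atPl U v a).ker x y = if ∀ w ≠ v, x w = y w then a.ker (x v) (y v) else 0 := by
  rw [atPl, AlgHom.comp_apply, AlgHom.comp_apply, ker_toPG, ker_single, ker_loc]

theorem ker_atPl_of_eq {v : HeightOneSpectrum (𝓞 F)} (a : LocH U v) {x y : D U}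
    (h : ∀ w ≠ v, x w = y w) : (atPl U v a).ker x y = a.ker (x v) (y v) := by
  classical
  rw [ker_atPl, if_pos h]

theorem ker_atPl_of_ne {v : HeightOneSpectrum (𝓞 F)} (a : LocH U v) {x y : D U}
    {w : HeightOneSpectrum (𝓞 F)} (hw : w ≠ v) (h : x w ≠ y w) : (atPl U v a).ker x y = 0 := by
  classical
  rw [ker_atPl, if_neg fun h' => h (h' w hw)]

theorem eq_of_ker_atPl_ne_zero {v : HeightOneSpectrum (𝓞 F)} {a : LocH U v} {x y : D U}
    (h : (atPl U v a).ker x y ≠ 0) : (∀ w ≠ v, x w = y w) ∧ a.ker (x v) (y v) ≠ 0 := by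
  classical
  rw [ker_atPl] at h
  split_ifs at h with h'
  · exact ⟨h', h⟩
  · exact absurd rfl h

theorem star_atPl (v : HeightOneSpectrum (𝓞 F)) (a : LocH U v) :
    star (atPl U v a) = atPl U v (star a) := by
  classical
  rw [atPl, AlgHom.comp_apply, AlgHom.comp_apply, AlgHom.comp_apply, AlgHom.comp_apply, star_toPG,
    star_single, star_loc]

theorem commute_atPl {v w : HeightOneSpectrum (𝓞 F)} (h : v ≠ w) (a : LocH U v) (b : LocH U w) :
    Commute (atPl U v a) (atPl U w b) := by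
  classical
  have h1 := commute_single (b := base U) h (loc v (U.U v) a) (loc w (U.U w) b)
  exact h1.map (toPG F (D U))

theorem act_atPl {E : Type*} [AddCommGroup E] [Module ℂ E] [h : DecidableEq
    (HeightOneSpectrum (𝓞 F))] {v : HeightOneSpectrum (𝓞 F)} (a : LocH U v) (f : D U → E)
    (x : D U) : (atPl U v a).act f x = a.act (fun y => f (upd x v y)) (x v) := by
  obtain rfl : h = fun a b => Classical.propDecidable (a = b) := Subsingleton.elim _ _
  classical
  rw [atPl, AlgHom.comp_apply, AlgHom.comp_apply, act_toPG, act_single_apply, act_loc]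

omit [NumberField F] in
theorem rowSum_toPG {X : Type*} [MulAction (GL (Fin 2) F) X] [TrivScalar F X]
    (a : HK (GL (Fin 2) F) X) (x : X) : (toPG F X a).rowSum x = a.rowSum x := by
  unfold rowSum
  simp only [ker_toPG]

theorem rowSum_atPl {v : HeightOneSpectrum (𝓞 F)} (a : LocH U v) (x : D U) :
    (atPl U v a).rowSum x = a.rowSum (x v) := by
  classical
  rw [atPl, AlgHom.comp_apply, AlgHom.comp_apply, rowSum_toPG, rowSum_single]
  unfold rowSum
  simp only [ker_loc]

end AtPl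

/-! ### Transport along an equality of groups -/

section Cast

variable {E : Type*} [Field E] {H H' : Subgroup (GL (Fin 2) E)}

/-- `Cos H = Cos H'` -/
def castCos (h : H = H') : Cos H ≃ Cos H' := Equiv.cast (by rw [h])

@[simp] theorem castCos_mk (h : H = H') (g : GL (Fin 2) E) :
    castCos h (Cos.mk H g) = Cos.mk H' g := by
  subst h
  rfl

@[simp] theorem castCos_symm_mk (h : H = H') (g : GL (Fin 2) E) :
    (castCos h).symm (Cos.mk H' g) = Cos.mk H g := by
  subst h
  rfl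

theorem castCos_rfl (x : Cos H) : castCos rfl x = x := rfl

theorem castCos_smul (h : H = H') (g : GL (Fin 2) E) (x : Cos H) :
    castCos h (g • x) = g • castCos h x := by
  subst h
  rfl

theorem castCos_eq_map (h : H = H') (x : Cos H) : castCos h x = Cos.map h.le x := by
  obtain ⟨g, rfl⟩ := Cos.mk_surjective x
  rw [castCos_mk, Cos.map_mk]

/-- transport of the Hecke algebra -/
def castHK (h : H = H') : HK (GL (Fin 2) E) (Cos H) →ₐ[ℂ] HK (GL (Fin 2) E) (Cos H') :=
  map (castCos h) fun g => ⟨g, fun x => castCos_smul h g x⟩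

@[simp] theorem ker_castHK (h : H = H') (a : HK (GL (Fin 2) E) (Cos H)) (x y : Cos H) :
    (castHK h a).ker (castCos h x) (castCos h y) = a.ker x y := by
  rw [castHK, ker_map, Equiv.symm_apply_apply, Equiv.symm_apply_apply]

theorem ker_castHK' (h : H = H') (a : HK (GL (Fin 2) E) (Cos H)) (x y : Cos H') :
    (castHK h a).ker x y = a.ker ((castCos h).symm x) ((castCos h).symm y) := by
  rw [castHK, ker_map]

theorem castHK_rfl (a : HK (GL (Fin 2) E) (Cos H)) : castHK rfl a = a := by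
  ext x y
  exact ker_castHK rfl a x y

theorem star_castHK (h : H = H') (a : HK (GL (Fin 2) E) (Cos H)) :
    star (castHK h a) = castHK h (star a) := by
  subst h
  rw [castHK_rfl, castHK_rfl]

theorem act_castHK {M : Type*} [AddCommGroup M] [Module ℂ M] (h : H = H')
    (a : HK (GL (Fin 2) E) (Cos H)) (f : Cos H' → M) (x : Cos H) :
    (castHK h a).act f (castCos h x) = a.act (fun y => f (castCos h y)) x := by
  subst h
  rw [castHK_rfl]
  rfl

end Cast

/-! ### The Iwahori-Hecke algebra at one place -/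

section Iwahori

open Fermat.Agent.LT.Iwa

variable {F : Type*} [Field F] [NumberField F] {U : Lev F} {v : HeightOneSpectrum (𝓞 F)}

/-- The Iwahori-Hecke algebra at `v` acting on a level which is Iwahori at `v`. -/
def iwAt (hU : U.U v = Iw (vF v)) :
    HK (GL (Fin 2) (v.adicCompletion F)) (Cos (Iw (vF v))) →ₐ[ℂ] HK (PG F) (D U) :=
  (atPl U v).comp (castHK hU.symm)

/-- The spherical Hecke algebra at `v` acting on a level which is maximal at `v`. -/
def spAt (hU : U.U v = GLO (vF v)) :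
    HK (GL (Fin 2) (v.adicCompletion F)) (Cos (GLO (vF v))) →ₐ[ℂ] HK (PG F) (D U) :=
  (atPl U v).comp (castHK hU.symm)

theorem iwAt_apply (hU : U.U v = Iw (vF v))
    (a : HK (GL (Fin 2) (v.adicCompletion F)) (Cos (Iw (vF v)))) :
    iwAt hU a = atPl U v (castHK hU.symm a) := by rw [iwAt, AlgHom.comp_apply]

theorem spAt_apply (hU : U.U v = GLO (vF v))
    (a : HK (GL (Fin 2) (v.adicCompletion F)) (Cos (GLO (vF v)))) :
    spAt hU a = atPl U v (castHK hU.symm a) := by rw [spAt, AlgHom.comp_apply]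

theorem star_iwAt (hU : U.U v = Iw (vF v))
    (a : HK (GL (Fin 2) (v.adicCompletion F)) (Cos (Iw (vF v)))) :
    star (iwAt hU a) = iwAt hU (star a) := by
  rw [iwAt, AlgHom.comp_apply, AlgHom.comp_apply, star_atPl, star_castHK]

theorem star_spAt (hU : U.U v = GLO (vF v))
    (a : HK (GL (Fin 2) (v.adicCompletion F)) (Cos (GLO (vF v)))) :
    star (spAt hU a) = spAt hU (star a) := by
  rw [spAt, AlgHom.comp_apply, AlgHom.comp_apply, star_atPl, star_castHK]

/-- the projection onto the functions of level `GL₂(O_v)` at `v` -/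
def eAt (hU : U.U v = Iw (vF v)) (𝔡 : Datum (vF v)) : HK (PG F) (D U) := iwAt hU 𝔡.eH

/-- the Atkin-Lehner involution at `v` -/
def wAt (hU : U.U v = Iw (vF v)) (𝔡 : Datum (vF v)) : HK (PG F) (D U) := iwAt hU 𝔡.wH

/-- the operator `U` at `v` -/
def uAt (hU : U.U v = Iw (vF v)) (𝔡 : Datum (vF v)) : HK (PG F) (D U) := iwAt hU 𝔡.uH

/-- the central element `C` at `v` -/
def cAt (hU : U.U v = Iw (vF v)) (𝔡 : Datum (vF v)) : HK (PG F) (D U) := iwAt hU 𝔡.cH

/-- the spherical Hecke operator at `v` (the sum over the `q + 1` neighbours) -/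
def tAt (hU : U.U v = GLO (vF v)) (𝔡 : Datum (vF v)) : HK (PG F) (D U) := spAt hU 𝔡.tH

variable (hU : U.U v = Iw (vF v)) (𝔡 : Datum (vF v))

theorem star_eAt : star (eAt hU 𝔡) = eAt hU 𝔡 := by rw [eAt, star_iwAt, 𝔡.star_eH]

theorem star_wAt : star (wAt hU 𝔡) = wAt hU 𝔡 := by rw [wAt, star_iwAt, 𝔡.star_wH]

theorem star_cAt : star (cAt hU 𝔡) = cAt hU 𝔡 := by rw [cAt, star_iwAt, 𝔡.star_cH]

theorem star_tAt (hU : U.U v = GLO (vF v)) : star (tAt hU 𝔡) = tAt hU 𝔡 := by
  rw [tAt, star_spAt, 𝔡.star_tH]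

theorem iwaRelAt : IwaRel (eAt hU 𝔡) (wAt hU 𝔡) := Datum.map_iwaRel (iwAt hU) 𝔡.iwaRelH

theorem uAt_eq : uAt hU 𝔡 = opU (𝔡.q : ℂ) (eAt hU 𝔡) (wAt hU 𝔡) :=
  Datum.map_opU (iwAt hU) _ _ _

theorem cAt_eq : cAt hU 𝔡 = opC (𝔡.q : ℂ) (eAt hU 𝔡) (wAt hU 𝔡) :=
  Datum.map_opC (iwAt hU) _ _ _

theorem eAt_eq_eAt (𝔡' : Datum (vF v)) : eAt hU 𝔡 = eAt hU 𝔡' := by
  rw [eAt, eAt, 𝔡.eH_eq_eH 𝔡']

theorem wAt_eq_wAt (𝔡' : Datum (vF v)) : wAt hU 𝔡 = wAt hU 𝔡' := by
  rw [wAt, wAt, 𝔡.wH_eq_wH 𝔡']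

theorem tAt_eq_tAt (hU : U.U v = GLO (vF v)) (𝔡' : Datum (vF v)) : tAt hU 𝔡 = tAt hU 𝔡' := by
  rw [tAt, tAt, 𝔡.tH_eq_tH 𝔡']

theorem commute_iwAt_atPl {w : HeightOneSpectrum (𝓞 F)} (h : v ≠ w)
    (a : HK (GL (Fin 2) (v.adicCompletion F)) (Cos (Iw (vF v)))) (b : LocH U w) :
    Commute (iwAt hU a) (atPl U w b) := by
  rw [iwAt_apply]
  exact commute_atPl h _ _

theorem commute_spAt_atPl {w : HeightOneSpectrum (𝓞 F)} (h : v ≠ w) (hU : U.U v = GLO (vF v))
    (a : HK (GL (Fin 2) (v.adicCompletion F)) (Cos (GLO (vF v)))) (b : LocH U w) :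
    Commute (spAt hU a) (atPl U w b) := by
  rw [spAt_apply]
  exact commute_atPl h _ _

/-- Iwahori kernels at different places commute. -/
theorem commute_iwAt_iwAt {w : HeightOneSpectrum (𝓞 F)} (h : v ≠ w) (hU' : U.U w = Iw (vF w))
    (a : HK (GL (Fin 2) (v.adicCompletion F)) (Cos (Iw (vF v))))
    (b : HK (GL (Fin 2) (w.adicCompletion F)) (Cos (Iw (vF w)))) :
    Commute (iwAt hU a) (iwAt hU' b) := by
  rw [iwAt_apply, iwAt_apply]
  exact commute_atPl h _ _

/-- Iwahori kernels commute with spherical kernels at another place. -/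
theorem commute_iwAt_spAt {w : HeightOneSpectrum (𝓞 F)} (h : v ≠ w) (hU' : U.U w = GLO (vF w))
    (a : HK (GL (Fin 2) (v.adicCompletion F)) (Cos (Iw (vF v))))
    (b : HK (GL (Fin 2) (w.adicCompletion F)) (Cos (GLO (vF w)))) :
    Commute (iwAt hU a) (spAt hU' b) := by
  rw [iwAt_apply, spAt_apply]
  exact commute_atPl h _ _

/-- Spherical kernels at different places commute. -/
theorem commute_spAt_spAt {w : HeightOneSpectrum (𝓞 F)} (h : v ≠ w) (hU : U.U v = GLO (vF v))
    (hU' : U.U w = GLO (vF w))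
    (a : HK (GL (Fin 2) (v.adicCompletion F)) (Cos (GLO (vF v))))
    (b : HK (GL (Fin 2) (w.adicCompletion F)) (Cos (GLO (vF w)))) :
    Commute (spAt hU a) (spAt hU' b) := by
  rw [spAt_apply, spAt_apply]
  exact commute_atPl h _ _

/-- The spherical Hecke operators commute. -/
theorem commute_tAt {w : HeightOneSpectrum (𝓞 F)} (hU : U.U v = GLO (vF v))
    (hU' : U.U w = GLO (vF w)) (𝔡 : Datum (vF v)) (𝔡' : Datum (vF w)) :
    Commute (tAt hU 𝔡) (tAt hU' 𝔡') := by
  by_cases h : v = w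
  · subst h
    rw [tAt_eq_tAt 𝔡 hU 𝔡']
  · exact commute_spAt_spAt h hU hU' _ _

/-- `C` is central. -/
theorem commute_cAt_eAt : Commute (cAt hU 𝔡) (eAt hU 𝔡) := by
  rw [cAt_eq]
  exact (iwaRelAt hU 𝔡).commute_opC_e

theorem commute_cAt_wAt : Commute (cAt hU 𝔡) (wAt hU 𝔡) := by
  rw [cAt_eq]
  exact (iwaRelAt hU 𝔡).commute_opC_w

end Iwahori

end HK

end Fermat.Agent.LT

end
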