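import Mathlib

/-!
# Hecke kernels on a discrete `G`-set (helper62)

`X` a set with an action of a group `G`.  `HK G X` is the algebra of all kernels
`a : X → X → ℂ` which are `G`-invariant, row finite and column finite, under composition
`(a * b) x z = ∑ y, a x y * b y z`.  It is realised as a subalgebra of
`Module.End ℂ (X →₀ ℂ)` (`T e_y = ∑ x, a x y e_x`), so that all ring axioms are for free;
everything is used through `HK.ker`.
-/

set_option autoImplicit false

open Finsupp

noncomputable section

namespace Fermat.Agent.LT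

namespace HK

variable (G : Type*) [Group G] (X : Type*) [MulAction G X]

section Raw

variable {X : Type*}

theorem exists_ne_zero_of_finsum_ne_zero' {ι : Type*} {f : ι → ℂ} (h : ∑ᶠ i, f i ≠ 0) :
    ∃ i, f i ≠ 0 := by
  by_contra hne
  push Not at hne
  exact h ((finsum_congr hne).trans finsum_zero)

/-- endomorphisms of the free vector space on `X`. -/
def Endo (X : Type*) : Type _ := Module.End ℂ (X →₀ ℂ)

instance (X : Type*) : Ring (Endo X) := inferInstanceAs (Ring (Module.End ℂ (X →₀ ℂ)))

instance (X : Type*) : Algebra ℂ (Endo X) := inferInstanceAs (Algebra ℂ (Module.End ℂ (X →₀ ℂ)))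

/-- `Endo X` is a type of linear maps. -/
def Endo.lin (T : Endo X) : Module.End ℂ (X →₀ ℂ) := T

/-- the kernel of an endomorphism of `X →₀ ℂ`. -/
def rker (T : Endo X) (x y : X) : ℂ := T.lin (single y 1) x

theorem rker_add (T S : Endo X) (x y : X) : rker (T + S) x y = rker T x y + rker S x y := rfl

theorem rker_sub (T S : Endo X) (x y : X) : rker (T - S) x y = rker T x y - rker S x y := rfl

theorem rker_neg (T : Endo X) (x y : X) : rker (-T) x y = -rker T x y := rfl

theorem rker_zero (x y : X) : rker 0 x y = 0 := rfl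

theorem rker_smul (c : ℂ) (T : Endo X) (x y : X) : rker (c • T) x y = c * rker T x y := rfl

theorem rker_one [DecidableEq X] (x y : X) : rker 1 x y = if x = y then 1 else 0 := by
  show (single y 1 : X →₀ ℂ) x = _
  rw [Finsupp.single_apply]
  simp [eq_comm]

theorem rker_mul (T S : Endo X) (x z : X) :
    rker (T * S) x z = (S.lin (single z 1)).sum fun y c => c * rker T x y := by
  show T.lin (S.lin (single z 1)) x = _
  conv_lhs => rw [← Finsupp.sum_single (S.lin (single z 1))]
  rw [map_finsuppSum, Finsupp.sum_apply]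
  refine Finsupp.sum_congr fun y _ => ?_
  have : (single y ((S.lin (single z 1)) y) : X →₀ ℂ) = (S.lin (single z 1) y) • single y 1 := by
    rw [Finsupp.smul_single, smul_eq_mul, mul_one]
  rw [this, map_smul, Finsupp.smul_apply, smul_eq_mul]
  rfl

theorem rker_mul_finsum (T S : Endo X) (x z : X) :
    rker (T * S) x z = ∑ᶠ y, rker T x y * rker S y z := by
  rw [rker_mul, Finsupp.sum, finsum_eq_sum_of_support_subset (s := (S.lin (single z 1)).support)]
  · exact Finset.sum_congr rfl fun y _ => mul_comm _ _
  · intro y hy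
    rw [Function.mem_support] at hy
    rw [Finset.mem_coe, Finsupp.mem_support_iff]
    exact right_ne_zero_of_mul hy

theorem rker_ext {T S : Endo X} (h : ∀ x y, rker T x y = rker S x y) : T = S := by
  show T.lin = S.lin
  refine Finsupp.lhom_ext' fun y => LinearMap.ext_ring ?_
  ext x
  exact h x y

theorem rfinite_col (T : Endo X) (y : X) : {x | rker T x y ≠ 0}.Finite := by
  refine (T.lin (single y 1)).support.finite_toSet.subset fun x hx => ?_
  rw [Finset.mem_coe, Finsupp.mem_support_iff]
  exact hx

/-- the endomorphism with a given column finite kernel. -/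
def ofRker (a : X → X → ℂ) (hcol : ∀ y, {x | a x y ≠ 0}.Finite) : Endo X :=
  Finsupp.linearCombination ℂ fun y =>
    (Finsupp.onFinset (hcol y).toFinset (fun x => a x y) (by
      intro x hx
      rw [Set.Finite.mem_toFinset]
      exact hx) : X →₀ ℂ)

@[simp]
theorem rker_ofRker (a : X → X → ℂ) (hcol : ∀ y, {x | a x y ≠ 0}.Finite) (x y : X) :
    rker (ofRker a hcol) x y = a x y := by
  unfold rker ofRker Endo.lin
  rw [Finsupp.linearCombination_single, one_smul, Finsupp.onFinset_apply]

end Raw

/-- The algebra of Hecke kernels as a subalgebra. -/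
def sub : Subalgebra ℂ (Endo X) where
  carrier := {T | (∀ (g : G) x y, rker T (g • x) (g • y) = rker T x y) ∧
    ∀ x, {y | rker T x y ≠ 0}.Finite}
  mul_mem' := by
    rintro T S ⟨hT, hT'⟩ ⟨hS, hS'⟩
    refine ⟨fun g x z => ?_, fun x => ?_⟩
    · rw [rker_mul_finsum, rker_mul_finsum,
        ← finsum_comp_equiv (MulAction.toPerm g : Equiv.Perm X)]
      refine finsum_congr fun y => ?_
      rw [MulAction.toPerm_apply, hT, hS]
    · refine ((hT' x).biUnion fun y _ => hS' y).subset fun z hz => ?_
      rw [Set.mem_ofPred_eq, rker_mul_finsum] at hz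
      obtain ⟨y, hy⟩ := exists_ne_zero_of_finsum_ne_zero' hz
      exact Set.mem_biUnion (left_ne_zero_of_mul hy : rker T x y ≠ 0)
        (right_ne_zero_of_mul hy : rker S y z ≠ 0)
  one_mem' := by
    classical
    refine ⟨fun g x y => ?_, fun x => ?_⟩
    · rw [rker_one, rker_one]
      simp [smul_left_cancel_iff]
    · refine (Set.finite_singleton x).subset fun y hy => ?_
      rw [Set.mem_ofPred_eq, rker_one] at hy
      by_contra hne
      exact hy (if_neg fun h => hne h.symm)
  add_mem' := by
    rintro T S ⟨hT, hT'⟩ ⟨hS, hS'⟩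
    refine ⟨fun g x y => ?_, fun x => ?_⟩
    · rw [rker_add, rker_add, hT, hS]
    · refine ((hT' x).union (hS' x)).subset fun y hy => ?_
      by_contra hne
      rw [Set.mem_union, not_or] at hne
      refine hy ?_
      rw [rker_add, not_not.mp hne.1, not_not.mp hne.2, add_zero]
  zero_mem' := ⟨fun _ _ _ => rfl, fun x => by
    have : {y | rker (0 : Endo X) x y ≠ 0} = ∅ := by
      ext y; simp [rker_zero]
    rw [this]; exact Set.finite_empty⟩
  algebraMap_mem' := by
    classical
    intro r
    have h : ∀ x y : X, rker (algebraMap ℂ (Endo X) r) x y = if x = y then r else 0 := by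
      intro x y
      rw [Algebra.algebraMap_eq_smul_one, rker_smul, rker_one]
      split_ifs <;> simp
    refine ⟨fun g x y => ?_, fun x => ?_⟩
    · rw [h, h]
      simp [smul_left_cancel_iff]
    · refine (Set.finite_singleton x).subset fun y hy => ?_
      rw [Set.mem_ofPred_eq, h] at hy
      by_contra hne
      exact hy (if_neg fun h => hne h.symm)

end HK

/-- The algebra of Hecke kernels: `G`-invariant, row and column finite functions on `X × X`. -/
def HK (G : Type*) [Group G] (X : Type*) [MulAction G X] : Type _ := HK.sub G X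

namespace HK

variable {G : Type*} [Group G] {X : Type*} [MulAction G X]

instance : Ring (HK G X) := inferInstanceAs (Ring (HK.sub G X))

instance : Algebra ℂ (HK G X) := inferInstanceAs (Algebra ℂ (HK.sub G X))

/-- the kernel. -/
def ker (a : HK G X) (x y : X) : ℂ := rker a.1 x y

@[ext]
theorem ext {a b : HK G X} (h : ∀ x y, a.ker x y = b.ker x y) : a = b :=
  Subtype.ext (rker_ext h)

theorem ker_smul_smul (a : HK G X) (g : G) (x y : X) : a.ker (g • x) (g • y) = a.ker x y :=
  a.2.1 g x y

theorem finite_row (a : HK G X) (x : X) : {y | a.ker x y ≠ 0}.Finite := a.2.2 x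

theorem finite_col (a : HK G X) (y : X) : {x | a.ker x y ≠ 0}.Finite := rfinite_col a.1 y

theorem ker_mul (a b : HK G X) (x z : X) : (a * b).ker x z = ∑ᶠ y, a.ker x y * b.ker y z :=
  rker_mul_finsum a.1 b.1 x z

theorem ker_mul_tsum (a b : HK G X) (x z : X) :
    (a * b).ker x z = ∑' y, a.ker x y * b.ker y z := by
  rw [ker_mul, tsum_eq_finsum]
  exact (a.finite_row x).subset fun y hy => left_ne_zero_of_mul hy

theorem ker_mul_sum (a b : HK G X) (x z : X) {s : Finset X} (hs : ∀ y, a.ker x y ≠ 0 → y ∈ s) :
    (a * b).ker x z = ∑ y ∈ s, a.ker x y * b.ker y z := by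
  rw [ker_mul]
  exact finsum_eq_sum_of_support_subset _ fun y hy => hs y (left_ne_zero_of_mul hy)

@[simp] theorem ker_add (a b : HK G X) (x y : X) : (a + b).ker x y = a.ker x y + b.ker x y := rfl

@[simp] theorem ker_zero (x y : X) : (0 : HK G X).ker x y = 0 := rfl

@[simp] theorem ker_neg (a : HK G X) (x y : X) : (-a).ker x y = -a.ker x y := rfl

@[simp] theorem ker_sub (a b : HK G X) (x y : X) : (a - b).ker x y = a.ker x y - b.ker x y := rfl

@[simp] theorem ker_smul (c : ℂ) (a : HK G X) (x y : X) : (c • a).ker x y = c * a.ker x y := rfl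

theorem ker_one [DecidableEq X] (x y : X) : (1 : HK G X).ker x y = if x = y then 1 else 0 :=
  rker_one x y

/-- the Hecke kernel with given values. -/
def of (a : X → X → ℂ) (hinv : ∀ (g : G) x y, a (g • x) (g • y) = a x y)
    (hrow : ∀ x, {y | a x y ≠ 0}.Finite) (hcol : ∀ y, {x | a x y ≠ 0}.Finite) : HK G X :=
  ⟨ofRker a hcol, by
    refine ⟨fun g x y => ?_, fun x => ?_⟩
    · rw [rker_ofRker, rker_ofRker, hinv]
    · simpa only [rker_ofRker] using hrow x⟩

@[simp]
theorem ker_of (a : X → X → ℂ) (hinv : ∀ (g : G) x y, a (g • x) (g • y) = a x y)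
    (hrow : ∀ x, {y | a x y ≠ 0}.Finite) (hcol : ∀ y, {x | a x y ≠ 0}.Finite) (x y : X) :
    (of a hinv hrow hcol).ker x y = a x y :=
  rker_ofRker a hcol x y

/-- the adjoint kernel. -/
def adj (a : HK G X) : HK G X :=
  of (fun x y => star (a.ker y x)) (fun g x y => by rw [a.ker_smul_smul])
    (fun x => (a.finite_col x).subset fun y hy h => hy (by simp [h]))
    (fun y => (a.finite_row y).subset fun x hx h => hx (by simp [h]))

@[simp]
theorem ker_adj (a : HK G X) (x y : X) : a.adj.ker x y = star (a.ker y x) := ker_of _ _ _ _ _ _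

@[simp] theorem adj_adj (a : HK G X) : a.adj.adj = a := by ext x y; simp

theorem adj_mul (a b : HK G X) : (a * b).adj = b.adj * a.adj := by
  ext x z
  have hs : ((a.finite_row z).toFinset : Set X) = {y | a.ker z y ≠ 0} := by simp
  rw [ker_adj, ker_mul_sum a b z x (s := (a.finite_row z).toFinset) (by intro y hy; simpa using hy),
    ker_mul, finsum_eq_sum_of_support_subset (s := (a.finite_row z).toFinset), star_sum]
  · refine Finset.sum_congr rfl fun y _ => ?_
    rw [ker_adj, ker_adj, star_mul']
    ring
  · intro y hy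
    rw [hs]
    intro h
    refine hy ?_
    show b.adj.ker x y * a.adj.ker y z = 0
    rw [ker_adj a, h, star_zero, mul_zero]

theorem adj_add (a b : HK G X) : (a + b).adj = a.adj + b.adj := by ext x y; simp

theorem adj_smul (c : ℂ) (a : HK G X) : (c • a).adj = star c • a.adj := by ext x y; simp

theorem adj_one : (1 : HK G X).adj = 1 := by
  classical
  ext x y
  rw [ker_adj, ker_one, ker_one]
  by_cases h : x = y
  · simp [h]
  · simp [h, Ne.symm h]

instance : StarRing (HK G X) where
  star := adj
  star_involutive := adj_adj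
  star_mul := adj_mul
  star_add := adj_add

theorem star_def (a : HK G X) : star a = a.adj := rfl

@[simp]
theorem ker_star (a : HK G X) (x y : X) : (star a).ker x y = star (a.ker y x) := ker_adj a x y

/-! ### action on functions -/

/-- the operator on functions on `X` with values in a complex vector space. -/
def act {E : Type*} [AddCommGroup E] [Module ℂ E] (a : HK G X) : (X → E) →ₗ[ℂ] (X → E) where
  toFun f x := ∑ y ∈ (a.finite_row x).toFinset, a.ker x y • f y
  map_add' f g := by
    ext x
    simp only [Pi.add_apply, smul_add, Finset.sum_add_distrib]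
  map_smul' c f := by
    ext x
    simp only [Pi.smul_apply, RingHom.id_apply, Finset.smul_sum]
    exact Finset.sum_congr rfl fun y _ => smul_comm _ _ _

section act

variable {E : Type*} [AddCommGroup E] [Module ℂ E]

theorem act_apply (a : HK G X) (f : X → E) (x : X) :
    a.act f x = ∑ y ∈ (a.finite_row x).toFinset, a.ker x y • f y := rfl

theorem act_apply_finsum (a : HK G X) (f : X → E) (x : X) :
    a.act f x = ∑ᶠ y, a.ker x y • f y := by
  rw [act_apply, finsum_eq_sum_of_support_subset]
  intro y hy
  rw [Set.Finite.coe_toFinset]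
  intro h
  exact hy (by show a.ker x y • f y = 0; rw [h, zero_smul])

theorem act_apply_sum (a : HK G X) (f : X → E) (x : X) {s : Finset X}
    (hs : ∀ y, a.ker x y ≠ 0 → y ∈ s) : a.act f x = ∑ y ∈ s, a.ker x y • f y := by
  rw [act_apply]
  refine Finset.sum_subset (fun y hy => hs y (by simpa using hy)) fun y _ hy => ?_
  rw [Set.Finite.mem_toFinset, Set.mem_ofPred_eq, not_not] at hy
  rw [hy, zero_smul]

theorem act_apply_tsum (a : HK G X) (f : X → ℂ) (x : X) :
    a.act f x = ∑' y, a.ker x y * f y := by
  rw [act_apply_finsum, tsum_eq_finsum]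
  · rfl
  · exact (a.finite_row x).subset fun y hy => left_ne_zero_of_mul hy

theorem act_one : (1 : HK G X).act (E := E) = LinearMap.id := by
  classical
  ext f x
  rw [act_apply_sum (s := {x})]
  · rw [Finset.sum_singleton, ker_one, if_pos rfl, one_smul, LinearMap.id_apply]
  · intro y hy
    rw [ker_one] at hy
    rw [Finset.mem_singleton]
    by_contra h
    exact hy (if_neg (Ne.symm h))

theorem act_mul (a b : HK G X) : (a * b).act (E := E) = a.act ∘ₗ b.act := by
  classical
  ext f x
  rw [LinearMap.comp_apply]
  set s : Finset X := (a.finite_row x).toFinset with hs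
  have hs' : ∀ y, a.ker x y ≠ 0 → y ∈ s := fun y hy => by simpa [hs] using hy
  set t : Finset X := s.biUnion fun y => (b.finite_row y).toFinset with ht
  have ht' : ∀ y ∈ s, ∀ z, b.ker y z ≠ 0 → z ∈ t := fun y hy z hz => by
    rw [ht, Finset.mem_biUnion]
    exact ⟨y, hy, by simpa using hz⟩
  rw [act_apply_sum (a * b) f x (s := t), act_apply_sum a _ x hs']
  · have h1 : ∀ y ∈ s, a.ker x y • b.act f y = ∑ z ∈ t, (a.ker x y * b.ker y z) • f z := by
      intro y hy
      rw [act_apply_sum b f y (ht' y hy), Finset.smul_sum]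
      exact Finset.sum_congr rfl fun z _ => by rw [mul_smul]
    rw [Finset.sum_congr rfl h1, Finset.sum_comm]
    refine Finset.sum_congr rfl fun z _ => ?_
    rw [ker_mul_sum a b x z hs', Finset.sum_smul]
  · intro z hz
    rw [ker_mul] at hz
    obtain ⟨y, hy⟩ := exists_ne_zero_of_finsum_ne_zero' hz
    exact ht' y (hs' y (left_ne_zero_of_mul hy)) z (right_ne_zero_of_mul hy)

theorem act_add (a b : HK G X) : (a + b).act (E := E) = a.act + b.act := by
  classical
  ext f x
  set s : Finset X := (a.finite_row x).toFinset ∪ (b.finite_row x).toFinset with hs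
  have ha : ∀ y, a.ker x y ≠ 0 → y ∈ s := fun y hy => by
    rw [hs, Finset.mem_union]; left; simpa using hy
  have hb : ∀ y, b.ker x y ≠ 0 → y ∈ s := fun y hy => by
    rw [hs, Finset.mem_union]; right; simpa using hy
  have hab : ∀ y, (a + b).ker x y ≠ 0 → y ∈ s := fun y hy => by
    by_contra h
    refine hy ?_
    rw [ker_add, not_not.mp (fun h' => h (ha y h')), not_not.mp (fun h' => h (hb y h')), add_zero]
  rw [LinearMap.add_apply, Pi.add_apply, act_apply_sum _ _ _ ha, act_apply_sum _ _ _ hb,
    act_apply_sum _ _ _ hab, ← Finset.sum_add_distrib]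
  exact Finset.sum_congr rfl fun y _ => by rw [ker_add, add_smul]

theorem act_smul (c : ℂ) (a : HK G X) : (c • a).act (E := E) = c • a.act := by
  ext f x
  rw [LinearMap.smul_apply, Pi.smul_apply, act_apply a, Finset.smul_sum,
    act_apply_sum (s := (a.finite_row x).toFinset)]
  · exact Finset.sum_congr rfl fun y _ => by rw [ker_smul, mul_smul]
  · intro y hy
    rw [ker_smul] at hy
    simpa using right_ne_zero_of_mul hy

variable (G X E) in
/-- the algebra of Hecke kernels acts on functions. -/
def actHom : HK G X →ₐ[ℂ] Module.End ℂ (X → E) :=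
  AlgHom.ofLinearMap
    { toFun := fun a => a.act
      map_add' := act_add
      map_smul' := act_smul }
    act_one act_mul

@[simp] theorem actHom_apply (a : HK G X) : actHom G X E a = a.act := rfl

/-- the operators commute with the action of `G`. -/
theorem act_smul_apply (a : HK G X) (f : X → E) (g : G) (x : X) :
    a.act f (g • x) = a.act (fun y => f (g • y)) x := by
  rw [act_apply_finsum, act_apply_finsum, ← finsum_comp_equiv (MulAction.toPerm g : Equiv.Perm X)]
  refine finsum_congr fun y => ?_
  rw [MulAction.toPerm_apply, ker_smul_smul]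

/-- the operators commute with linear maps of the values. -/
theorem act_comp_apply {E' : Type*} [AddCommGroup E'] [Module ℂ E'] (a : HK G X) (l : E →ₗ[ℂ] E')
    (f : X → E) : a.act (fun y => l (f y)) = fun x => l (a.act f x) := by
  ext x
  rw [act_apply, act_apply, map_sum]
  exact Finset.sum_congr rfl fun y _ => by rw [map_smul]

end act

/-! ### Row sums -/

/-- the sum of the absolute values of a row. -/
def rowSum (a : HK G X) (x : X) : ℝ := ∑ᶠ y, ‖a.ker x y‖

theorem rowSum_smul (a : HK G X) (g : G) (x : X) : a.rowSum (g • x) = a.rowSum x := by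
  unfold rowSum
  rw [← finsum_comp_equiv (MulAction.toPerm g : Equiv.Perm X)]
  refine finsum_congr fun y => ?_
  rw [MulAction.toPerm_apply, ker_smul_smul]

theorem rowSum_nonneg (a : HK G X) (x : X) : 0 ≤ a.rowSum x := finsum_nonneg fun _ => norm_nonneg _

theorem rowSum_eq_sum (a : HK G X) (x : X) :
    a.rowSum x = ∑ y ∈ (a.finite_row x).toFinset, ‖a.ker x y‖ := by
  unfold rowSum
  refine finsum_eq_sum_of_support_subset _ fun y hy => ?_
  rw [Set.Finite.coe_toFinset]
  exact fun h => hy (by simp [h])

theorem norm_act_le (a : HK G X) {f : X → ℂ} {C : ℝ} (hf : ∀ x, ‖f x‖ ≤ C) (x : X) :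
    ‖a.act f x‖ ≤ a.rowSum x * C := by
  rw [act_apply, rowSum_eq_sum, Finset.sum_mul]
  refine (norm_sum_le _ _).trans (Finset.sum_le_sum fun y _ => ?_)
  rw [norm_smul]
  exact mul_le_mul_of_nonneg_left (hf y) (norm_nonneg _)

/-! ### Transport -/

section Map

variable {G' : Type*} [Group G'] {X' : Type*} [MulAction G' X']

/-- Transport of a kernel (`map` is the algebra homomorphism). -/
def mapFun (t : X ≃ X') (ht : ∀ g' : G', ∃ g : G, ∀ x, t (g • x) = g' • t x) (a : HK G X) :
    HK G' X' :=
  of (fun x y => a.ker (t.symm x) (t.symm y))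
    (fun g' x y => by
      obtain ⟨g, hg⟩ := ht g'
      have h1 : ∀ x', t.symm (g' • x') = g • t.symm x' := fun x' => by
        rw [Equiv.symm_apply_eq, hg, Equiv.apply_symm_apply]
      rw [h1, h1, ker_smul_smul])
    (fun x => ((a.finite_row (t.symm x)).preimage t.symm.injective.injOn).subset
      fun y hy => hy)
    (fun y => ((a.finite_col (t.symm y)).preimage t.symm.injective.injOn).subset
      fun x hx => hx)

theorem ker_mapFun (t : X ≃ X') (ht : ∀ g' : G', ∃ g : G, ∀ x, t (g • x) = g' • t x)
    (a : HK G X) (x y : X') : (mapFun t ht a).ker x y = a.ker (t.symm x) (t.symm y) :=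
  ker_of _ _ _ _ _ _

/-- Transport of Hecke kernels along a bijection `t : X ≃ X'` such that every `g' : G'` acts on `X'`
as some `g : G` acts on `X`. -/
def map (t : X ≃ X') (ht : ∀ g' : G', ∃ g : G, ∀ x, t (g • x) = g' • t x) :
    HK G X →ₐ[ℂ] HK G' X' :=
  AlgHom.ofLinearMap
    { toFun := mapFun t ht
      map_add' := fun a b => by ext x y; simp only [ker_mapFun, ker_add]
      map_smul' := fun c a => by ext x y; simp only [ker_mapFun, ker_smul, RingHom.id_apply] }
    (by
      classical
      ext x y
      show (mapFun t ht 1).ker x y = _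
      rw [ker_mapFun, ker_one, ker_one]
      simp)
    (fun a b => by
      ext x z
      show (mapFun t ht (a * b)).ker x z = (mapFun t ht a * mapFun t ht b).ker x z
      rw [ker_mapFun, ker_mul, ker_mul, ← finsum_comp_equiv t]
      refine finsum_congr fun y => ?_
      rw [ker_mapFun, ker_mapFun, Equiv.symm_apply_apply])

@[simp]
theorem ker_map (t : X ≃ X') (ht : ∀ g' : G', ∃ g : G, ∀ x, t (g • x) = g' • t x) (a : HK G X)
    (x y : X') : (map t ht a).ker x y = a.ker (t.symm x) (t.symm y) :=
  ker_mapFun t ht a x y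

theorem map_star (t : X ≃ X') (ht : ∀ g' : G', ∃ g : G, ∀ x, t (g • x) = g' • t x) (a : HK G X) :
    map t ht (star a) = star (map t ht a) := by
  ext x y
  simp

theorem map_act {E : Type*} [AddCommGroup E] [Module ℂ E] (t : X ≃ X')
    (ht : ∀ g' : G', ∃ g : G, ∀ x, t (g • x) = g' • t x) (a : HK G X) (f : X → E) :
    (map t ht a).act (f ∘ t.symm) = a.act f ∘ t.symm := by
  ext x
  rw [act_apply_finsum, Function.comp_apply, act_apply_finsum, ← finsum_comp_equiv t]
  refine finsum_congr fun y => ?_
  rw [ker_map, Function.comp_apply, Equiv.symm_apply_apply]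

end Map

end HK

end Fermat.Agent.LT
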