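import Fermat.Agent.LT.HK.Place

/-!
# Pure tensors of Hecke kernels on `D U`

* `PTen U` : families `κ w` of local Hecke kernels, almost all equal to `1` (a monoid);
* `pten : PTen U →* HK (PG F) (D U)`, `ker_pten`, `star_pten`;
* `PTen.at w : LocH U w →* PTen U`, `pten_at : pten (PTen.at w a) = atPl U w a`.
-/

set_option autoImplicit false

open Matrix NumberField IsDedekindDomain Set

noncomputable section

namespace Fermat.Agent.LT

namespace HK

open Fermat.Agent.LT.Lvl

section Pure

variable {F : Type*} [Field F] [NumberField F]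

/-- families of local Hecke kernels, almost all equal to `1` -/
@[ext]
structure PTen (U : Lev F) where
  /-- the local components -/
  k : ∀ w : HeightOneSpectrum (𝓞 F), LocH U w
  fin : {w | k w ≠ 1}.Finite

variable {U : Lev F}

namespace PTen

theorem ext' {κ κ' : PTen U} (h : ∀ w, κ.k w = κ'.k w) : κ = κ' := PTen.ext (funext h)

instance : One (PTen U) := ⟨⟨1, by
  have h : {w | (1 : ∀ w : HeightOneSpectrum (𝓞 F), LocH U w) w ≠ 1} = ∅ := by
    ext w
    simp
  rw [h]
  exact finite_empty⟩⟩

instance : Mul (PTen U) := ⟨fun κ κ' => ⟨κ.k * κ'.k, (κ.fin.union κ'.fin).subset fun w hw => by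
  by_contra h
  simp only [mem_union, mem_ofPred_eq, not_or, not_not] at h
  exact hw (by rw [Pi.mul_apply, h.1, h.2, mul_one])⟩⟩

@[simp] theorem one_k (w : HeightOneSpectrum (𝓞 F)) : (1 : PTen U).k w = 1 := rfl

@[simp] theorem mul_k (κ κ' : PTen U) (w : HeightOneSpectrum (𝓞 F)) :
    (κ * κ').k w = κ.k w * κ'.k w := rfl

instance : Monoid (PTen U) where
  mul_assoc a b c := ext' fun w => mul_assoc _ _ _
  one_mul a := ext' fun w => one_mul _
  mul_one a := ext' fun w => mul_one _

theorem finite_loc (κ : PTen U) : {w | loc w (U.U w) (κ.k w) ≠ 1}.Finite :=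
  κ.fin.subset fun w hw h => hw (by rw [h, map_one])

/-- the global kernel -/
def glob (κ : PTen U) : HK (GL (Fin 2) F) (D U) :=
  kp (fun w => loc w (U.U w) (κ.k w)) κ.finite_loc

theorem ker_glob (κ : PTen U) (x y : D U) :
    κ.glob.ker x y = ∏ᶠ w, (κ.k w).ker (x w) (y w) :=
  (ker_kp (fun w => loc w (U.U w) (κ.k w)) κ.finite_loc x y).trans
    (finprod_congr fun w => ker_loc w (U.U w) (κ.k w) (x w) (y w))

theorem glob_one : (1 : PTen U).glob = 1 :=
  (kp_congr (k' := 1) (hk' := finite_one) fun w => by
    rw [one_k, map_one, Pi.one_apply]).trans (kp_one _)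

theorem glob_mul (κ κ' : PTen U) : (κ * κ').glob = κ.glob * κ'.glob := by
  refine Eq.trans ?_ (kp_mul _ _).symm
  refine kp_congr fun w => ?_
  rw [mul_k, map_mul, Pi.mul_apply]

theorem kadm (κ : PTen U) : RProd.KAdm (R := ℂ) (fun w => (κ.k w).ker) where
  row w x := (κ.k w).finite_row x
  col w y := (κ.k w).finite_col y
  ind := κ.fin.subset fun w hw h => hw (by
    classical
    rw [show κ.k w = 1 from h, ker_one'])

/-- the adjoint -/
def adj (κ : PTen U) : PTen U :=
  ⟨fun w => star (κ.k w), κ.fin.subset fun w hw h => hw (by rw [h, star_one])⟩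

@[simp] theorem adj_k (κ : PTen U) (w : HeightOneSpectrum (𝓞 F)) :
    κ.adj.k w = star (κ.k w) := rfl

theorem star_glob (κ : PTen U) : star κ.glob = κ.adj.glob := by
  refine (star_kp κ.finite_loc (κ.finite_loc.subset fun w hw h => hw ?_)).trans ?_
  · show star (loc w (U.U w) (κ.k w)) = 1
    rw [h, star_one]
  · exact kp_congr fun w => star_loc _ _ _

end PTen

/-- **Pure tensors.** -/
def pten : PTen U →* HK (PG F) (D U) where
  toFun κ := toPG F (D U) κ.glob
  map_one' := by rw [PTen.glob_one, map_one]
  map_mul' κ κ' := by rw [PTen.glob_mul, map_mul]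

theorem pten_apply (κ : PTen U) : pten κ = toPG F (D U) κ.glob := rfl

theorem ker_pten (κ : PTen U) (x y : D U) :
    (pten κ).ker x y = ∏ᶠ w, (κ.k w).ker (x w) (y w) := by
  rw [pten_apply, ker_toPG, PTen.ker_glob]

theorem ker_pten' (κ : PTen U) (x y : D U) :
    (pten κ).ker x y = RProd.kprod (fun w => (κ.k w).ker) x y := ker_pten κ x y

theorem ker_pten_ne_zero {κ : PTen U} {x y : D U} (h : (pten κ).ker x y ≠ 0)
    (w : HeightOneSpectrum (𝓞 F)) : (κ.k w).ker (x w) (y w) ≠ 0 := by
  rw [ker_pten'] at h
  exact κ.kadm.ne_zero h w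

theorem star_pten (κ : PTen U) : star (pten κ) = pten κ.adj := by
  rw [pten_apply, star_toPG, PTen.star_glob, pten_apply]

/-- Pure tensors commute if they commute at every place. -/
theorem commute_pten {κ κ' : PTen U} (h : ∀ w, Commute (κ.k w) (κ'.k w)) :
    Commute (pten κ) (pten κ') := by
  have h1 : Commute κ κ' := PTen.ext' fun w => h w
  exact h1.map pten

/-! ### One place -/

open Classical in
/-- the kernel `a` at the place `w` -/
def PTen.at (w : HeightOneSpectrum (𝓞 F)) : LocH U w →* PTen U where
  toFun a := ⟨Function.update 1 w a, (finite_singleton w).subset fun w' hw' => by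
    by_contra h
    exact hw' (by rw [Function.update_of_ne h, Pi.one_apply])⟩
  map_one' := PTen.ext' fun w' => by
    show Function.update (1 : ∀ w, LocH U w) w 1 w' = 1
    by_cases h : w' = w
    · subst h
      rw [Function.update_self]
    · rw [Function.update_of_ne h, Pi.one_apply]
  map_mul' a b := PTen.ext' fun w' => by
    show Function.update (1 : ∀ w, LocH U w) w (a * b) w' =
      Function.update (1 : ∀ w, LocH U w) w a w' * Function.update (1 : ∀ w, LocH U w) w b w'
    by_cases h : w' = w
    · subst h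
      simp
    · simp [Function.update_of_ne h]

@[simp] theorem PTen.at_self (w : HeightOneSpectrum (𝓞 F)) (a : LocH U w) :
    (PTen.at w a).k w = a := by
  classical
  exact Function.update_self w a _

theorem PTen.at_of_ne {w w' : HeightOneSpectrum (𝓞 F)} (h : w' ≠ w) (a : LocH U w) :
    (PTen.at w a).k w' = 1 := by
  classical
  exact Function.update_of_ne h a _

theorem pten_at (w : HeightOneSpectrum (𝓞 F)) (a : LocH U w) :
    pten (PTen.at w a) = atPl U w a := by
  classical
  ext x y
  rw [ker_pten, ker_atPl]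
  split_ifs with h
  · rw [finprod_eq_single _ w, PTen.at_self]
    intro w' hw'
    rw [PTen.at_of_ne hw', ker_one, if_pos (h w' hw')]
  · push Not at h
    obtain ⟨w', hw', h1⟩ := h
    by_contra h0
    rw [← ker_pten] at h0
    have h2 := ker_pten_ne_zero h0 w'
    rw [PTen.at_of_ne hw', ker_one, if_neg h1] at h2
    exact h2 rfl

end Pure

end HK

end Fermat.Agent.LT

end
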