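import Fermat.Agent.LT.Nbr
import Fermat.Agent.LT.HK.Place

/-!
# The spherical Hecke operator `T_v` at one place of `D U`

* `tAt_act`: `(tAt hU 𝔡).act f d` is the sum over the neighbours of `d` at `v` (`Nbr`);
* `tAt_act_sum`: the classical formula; `ker_tAt`.
-/

set_option autoImplicit false

open Matrix NumberField IsDedekindDomain

noncomputable section

namespace Fermat.Agent.LT.HK

open Fermat.Agent.LT.Lvl Fermat.Agent.LT.Iwa

section Local

variable {E Γ₀ : Type*} [Field E] [LinearOrderedCommGroupWithZero Γ₀] {v : Valuation E Γ₀}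
  {H : Subgroup (GL (Fin 2) E)} {M : Type*} [AddCommGroup M] [Module ℂ M]

theorem castHK_tH_act_mk (𝔡 : Datum v) (hG : H = GLO v) (f : Cos H → M) (g : GL (Fin 2) E) :
    (castHK hG.symm 𝔡.tH).act f (Cos.mk H g) =
      ∑ b ∈ 𝔡.B, f (Cos.mk H (g * 𝔡.nt 1 b)) + f (Cos.mk H (g * 𝔡.dg)) := by
  subst hG
  rw [castHK_rfl]
  exact 𝔡.act_tH_mk f g

end Local

variable {F : Type*} [Field F] [NumberField F] {U : Lev F} {v : HeightOneSpectrum (𝓞 F)}
  {M : Type*} [AddCommGroup M] [Module ℂ M]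

/-- the classical formula -/
theorem tAt_act_sum [DecidableEq (HeightOneSpectrum (𝓞 F))] (hG : U.U v = GLO (vF v))
    (𝔡 : Datum (vF v)) (f : Lvl.D U → M) {d : Lvl.D U} {g : GL (Fin 2) (v.adicCompletion F)}
    (hg : d v = Cos.mk (U.U v) g) :
    (tAt hG 𝔡).act f d = ∑ b ∈ 𝔡.B, f (upd d v (Cos.mk (U.U v) (g * 𝔡.nt 1 b))) +
      f (upd d v (Cos.mk (U.U v) (g * 𝔡.dg))) := by
  rw [tAt, spAt_apply, act_atPl, hg]
  exact castHK_tH_act_mk 𝔡 hG _ g

/-- **`T_v` is the sum over the neighbours.** -/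
theorem tAt_act (hG : U.U v = GLO (vF v)) (𝔡 : Datum (vF v)) (f : Lvl.D U → M) (d : Lvl.D U) :
    (tAt hG 𝔡).act f d = ∑ᶠ (d' : Lvl.D U) (_ : Nbr U v d d'), f d' := by
  classical
  obtain ⟨g, hg⟩ := Cos.mk_surjective (d v)
  rw [tAt_act_sum hG 𝔡 f hg.symm, finsum_nbr hG 𝔡 hg.symm]

open Classical in
/-- the kernel of `T_v` -/
theorem ker_tAt (hG : U.U v = GLO (vF v)) (𝔡 : Datum (vF v)) (d d' : Lvl.D U) :
    (tAt hG 𝔡).ker d d' = if Nbr U v d d' then 1 else 0 := by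
  rw [← act_single, tAt_act, finsum_eq_single _ d']
  · rw [Pi.single_eq_same, finsum_eq_if]
  · intro x hx
    rw [Pi.single_eq_of_ne hx, finsum_zero]

end Fermat.Agent.LT.HK

end
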