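import Fermat.Agent.LT.HK.Basic

/-!
# Hecke kernels on a coset space `H ⧸ V` (helper62)

* `ofFun hφ` : the kernel `(xV, yV) ↦ φ (x⁻¹ y)` of a bi-`V`-invariant function;
* `fn a` : the bi-invariant function of a kernel; support of a product;
* `idem` : the idempotent of a character `χ` of a group `V' ≥ V`;
* `inv` : the operator of an element `η` normalising `V` with `η² ∈ V`.
-/

set_option autoImplicit false

noncomputable section

open scoped Pointwise

namespace Fermat.Agent.LT.HK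

variable {H : Type*} [Group H] {V : Subgroup H}

/-- A bi-`V`-invariant function with finite support modulo `V` on both sides. -/
structure BiFin (V : Subgroup H) (φ : H → ℂ) : Prop where
  left : ∀ v ∈ V, ∀ h, φ (v * h) = φ h
  right : ∀ v ∈ V, ∀ h, φ (h * v) = φ h
  row : {y : H ⧸ V | φ y.out ≠ 0}.Finite
  col : {y : H ⧸ V | φ y.out⁻¹ ≠ 0}.Finite

theorem exists_out_eq (h : H) : ∃ v ∈ V, (Quotient.out (h : H ⧸ V)) = h * v := by
  obtain ⟨v, hv⟩ := QuotientGroup.mk_out_eq_mul V h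
  exact ⟨v, v.2, hv⟩

namespace BiFin

variable {φ : H → ℂ}

theorem out (hφ : BiFin V φ) (h : H) : φ (Quotient.out (h : H ⧸ V)) = φ h := by
  obtain ⟨v, hv, e⟩ := exists_out_eq (V := V) h
  rw [e, hφ.right v hv]

theorem mul_out (hφ : BiFin V φ) (g h : H) : φ (g * Quotient.out (h : H ⧸ V)) = φ (g * h) := by
  obtain ⟨v, hv, e⟩ := exists_out_eq (V := V) h
  rw [e, ← mul_assoc, hφ.right v hv]

theorem out_inv_mul (hφ : BiFin V φ) (g h : H) :
    φ ((Quotient.out (h : H ⧸ V))⁻¹ * g) = φ (h⁻¹ * g) := by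
  obtain ⟨v, hv, e⟩ := exists_out_eq (V := V) h
  rw [e, mul_inv_rev, mul_assoc, hφ.left _ (V.inv_mem hv)]

theorem out_inv (hφ : BiFin V φ) (h : H) : φ (Quotient.out (h : H ⧸ V))⁻¹ = φ h⁻¹ := by
  rw [← mul_one (Quotient.out (h : H ⧸ V))⁻¹, hφ.out_inv_mul, mul_one]

end BiFin

/-- The Hecke kernel `(xV, yV) ↦ φ (x⁻¹ y)`. -/
def ofFun {φ : H → ℂ} (hφ : BiFin V φ) : HK H (H ⧸ V) :=
  of (fun x y => φ (x.out⁻¹ * y.out))
    (by
      intro g x y
      induction x using Quotient.inductionOn' with | h x => ?_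
      induction y using Quotient.inductionOn' with | h y => ?_
      show φ ((Quotient.out ((g * x : H) : H ⧸ V))⁻¹ * Quotient.out ((g * y : H) : H ⧸ V)) =
        φ ((Quotient.out (x : H ⧸ V))⁻¹ * Quotient.out (y : H ⧸ V))
      rw [hφ.mul_out, hφ.out_inv_mul, hφ.mul_out, hφ.out_inv_mul]
      congr 1
      group)
    (by
      intro x
      refine (hφ.row.preimage (f := fun y => x.out⁻¹ • y)
        (MulAction.injective _).injOn).subset fun y hy => ?_
      induction y using Quotient.inductionOn' with | h y => ?_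
      rw [Set.mem_preimage]
      show φ (Quotient.out ((x.out⁻¹ * y : H) : H ⧸ V)) ≠ 0
      rw [hφ.out]
      have h1 : φ (x.out⁻¹ * Quotient.out (y : H ⧸ V)) ≠ 0 := hy
      rwa [hφ.mul_out] at h1)
    (by
      intro y
      refine (hφ.col.preimage (f := fun x => y.out⁻¹ • x)
        (MulAction.injective _).injOn).subset fun x hx => ?_
      induction x using Quotient.inductionOn' with | h x => ?_
      rw [Set.mem_preimage]
      show φ (Quotient.out ((y.out⁻¹ * x : H) : H ⧸ V))⁻¹ ≠ 0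
      rw [hφ.out_inv, mul_inv_rev, inv_inv]
      have h1 : φ ((Quotient.out (x : H ⧸ V))⁻¹ * y.out) ≠ 0 := hx
      rwa [hφ.out_inv_mul] at h1)

@[simp]
theorem ker_ofFun {φ : H → ℂ} (hφ : BiFin V φ) (x y : H) :
    (ofFun hφ).ker (x : H ⧸ V) (y : H ⧸ V) = φ (x⁻¹ * y) := by
  rw [ofFun, ker_of, hφ.mul_out, hφ.out_inv_mul]

/-- Hecke kernels are equal if they agree on cosets. -/
theorem ext_mk {a b : HK H (H ⧸ V)}
    (h : ∀ x y : H, a.ker (x : H ⧸ V) (y : H ⧸ V) = b.ker (x : H ⧸ V) (y : H ⧸ V)) : a = b := by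
  ext x y
  induction x using Quotient.inductionOn' with | h x => ?_
  induction y using Quotient.inductionOn' with | h y => ?_
  exact h x y

/-- The bi-invariant function of a Hecke kernel. -/
def fn (a : HK H (H ⧸ V)) (h : H) : ℂ := a.ker ((1 : H) : H ⧸ V) (h : H ⧸ V)

theorem ker_eq_fn (a : HK H (H ⧸ V)) (x y : H) :
    a.ker (x : H ⧸ V) (y : H ⧸ V) = a.fn (x⁻¹ * y) := by
  have h := a.ker_smul_smul x⁻¹ (x : H ⧸ V) (y : H ⧸ V)
  rw [← h, fn]
  congr 1
  show ((x⁻¹ * x : H) : H ⧸ V) = _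
  rw [inv_mul_cancel]

theorem ext_fn {a b : HK H (H ⧸ V)} (h : ∀ x : H, a.fn x = b.fn x) : a = b :=
  ext_mk fun x y => by rw [ker_eq_fn, ker_eq_fn, h]

@[simp] theorem fn_ofFun {φ : H → ℂ} (hφ : BiFin V φ) (h : H) : (ofFun hφ).fn h = φ h := by
  rw [fn, ker_ofFun, inv_one, one_mul]

@[simp] theorem fn_add (a b : HK H (H ⧸ V)) (h : H) : (a + b).fn h = a.fn h + b.fn h := rfl

@[simp] theorem fn_sub (a b : HK H (H ⧸ V)) (h : H) : (a - b).fn h = a.fn h - b.fn h := rfl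

@[simp] theorem fn_neg (a : HK H (H ⧸ V)) (h : H) : (-a).fn h = -a.fn h := rfl

@[simp] theorem fn_zero (h : H) : (0 : HK H (H ⧸ V)).fn h = 0 := rfl

@[simp] theorem fn_smul (c : ℂ) (a : HK H (H ⧸ V)) (h : H) : (c • a).fn h = c * a.fn h := rfl

theorem fn_one [DecidablePred (· ∈ V)] (h : H) :
    (1 : HK H (H ⧸ V)).fn h = if h ∈ V then 1 else 0 := by
  classical
  rw [fn, ker_one]
  by_cases hh : h ∈ V
  · rw [if_pos hh, if_pos]
    rw [QuotientGroup.eq, inv_one, one_mul]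
    exact hh
  · rw [if_neg hh, if_neg]
    rw [QuotientGroup.eq, inv_one, one_mul]
    exact hh

@[simp] theorem fn_star (a : HK H (H ⧸ V)) (h : H) : (star a).fn h = star (a.fn h⁻¹) := by
  rw [fn, ker_star, ker_eq_fn, mul_one]

theorem fn_mul_right (a : HK H (H ⧸ V)) (h : H) {v : H} (hv : v ∈ V) :
    a.fn (h * v) = a.fn h := by
  rw [fn, fn, QuotientGroup.mk_mul_of_mem h hv]

theorem fn_mul_left (a : HK H (H ⧸ V)) (h : H) {v : H} (hv : v ∈ V) :
    a.fn (v * h) = a.fn h := by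
  have e : (v : H ⧸ V) = ((1 : H) : H ⧸ V) := by
    rw [QuotientGroup.eq, mul_one]
    exact V.inv_mem hv
  have h1 := a.ker_eq_fn v⁻¹ h
  rw [inv_inv] at h1
  rw [← h1, fn]
  congr 1
  rw [QuotientGroup.eq, inv_inv, mul_one]
  exact hv

theorem biFin_fn (a : HK H (H ⧸ V)) : BiFin V a.fn where
  left v hv h := a.fn_mul_left h hv
  right v hv h := a.fn_mul_right h hv
  row := (a.finite_row ((1 : H) : H ⧸ V)).subset fun y hy => by
    have : a.fn y.out = a.ker ((1 : H) : H ⧸ V) y := by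
      rw [fn, QuotientGroup.out_eq']
    rw [Set.mem_ofPred_eq, this] at hy
    exact hy
  col := (a.finite_col ((1 : H) : H ⧸ V)).subset fun y hy => by
    have : a.fn y.out⁻¹ = a.ker y ((1 : H) : H ⧸ V) := by
      conv_rhs => rw [← QuotientGroup.out_eq' y]
      rw [ker_eq_fn, mul_one]
    rw [Set.mem_ofPred_eq, this] at hy
    exact hy

@[simp] theorem ofFun_fn (a : HK H (H ⧸ V)) : ofFun a.biFin_fn = a := ext_fn fun h => fn_ofFun _ h

theorem fn_mul (a b : HK H (H ⧸ V)) (h : H) :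
    (a * b).fn h = ∑ᶠ y : H ⧸ V, a.fn y.out * b.fn (y.out⁻¹ * h) := by
  rw [fn, ker_mul]
  refine finsum_congr fun y => ?_
  conv_lhs => rw [← QuotientGroup.out_eq' y]
  rw [ker_eq_fn, ker_eq_fn, inv_one, one_mul]

/-- The support of a product. -/
theorem exists_of_fn_mul_ne_zero {a b : HK H (H ⧸ V)} {h : H} (hh : (a * b).fn h ≠ 0) :
    ∃ x y : H, h = x * y ∧ a.fn x ≠ 0 ∧ b.fn y ≠ 0 := by
  rw [fn_mul] at hh
  obtain ⟨y, hy⟩ := exists_ne_zero_of_finsum_ne_zero' hh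
  exact ⟨y.out, y.out⁻¹ * h, by group, left_ne_zero_of_mul hy, right_ne_zero_of_mul hy⟩

theorem mem_of_fn_mul_ne_zero {a b : HK H (H ⧸ V)} {A B : Set H} (ha : ∀ h, a.fn h ≠ 0 → h ∈ A)
    (hb : ∀ h, b.fn h ≠ 0 → h ∈ B) (h : H) (hh : (a * b).fn h ≠ 0) : h ∈ A * B := by
  obtain ⟨x, y, rfl, hx, hy⟩ := exists_of_fn_mul_ne_zero hh
  exact Set.mul_mem_mul (ha x hx) (hb y hy)

/-! ### The idempotent of a character -/

section Idem

variable {V' : Subgroup H} {χ : H → ℂ}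

/-- `χ` is a unitary character of `V'`, trivial on `V ≤ V'`, `[V' : V]` finite. -/
structure IsChar (V V' : Subgroup H) (χ : H → ℂ) : Prop where
  le : V ≤ V'
  fin : V.relIndex V' ≠ 0
  one : ∀ v ∈ V, χ v = 1
  mul : ∀ a ∈ V', ∀ b ∈ V', χ (a * b) = χ a * χ b
  norm : ∀ a ∈ V', star (χ a) * χ a = 1

theorem isChar_one (h : V ≤ V') (hf : V.relIndex V' ≠ 0) : IsChar V V' (fun _ => 1) where
  le := h
  fin := hf
  one _ _ := rfl
  mul _ _ _ _ := (one_mul _).symm
  norm _ _ := by simp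

theorem IsChar.ne_zero (hχ : IsChar V V' χ) {a : H} (ha : a ∈ V') : χ a ≠ 0 := by
  intro h
  have := hχ.norm a ha
  rw [h, mul_zero] at this
  exact zero_ne_one this

theorem IsChar.inv (hχ : IsChar V V' χ) {a : H} (ha : a ∈ V') : χ a⁻¹ = (χ a)⁻¹ := by
  have h1 := hχ.mul a⁻¹ (V'.inv_mem ha) a ha
  rw [inv_mul_cancel, hχ.one 1 V.one_mem] at h1
  exact eq_inv_of_mul_eq_one_left h1.symm

theorem IsChar.star (hχ : IsChar V V' χ) {a : H} (ha : a ∈ V') : star (χ a) = (χ a)⁻¹ :=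
  eq_inv_of_mul_eq_one_left (hχ.norm a ha)

/-- The set of the cosets of `V` in `x V'`. -/
def cosets (V V' : Subgroup H) (x : H) : Set (H ⧸ V) := {y | x⁻¹ * y.out ∈ V'}

theorem mk_mem_cosets (h : V ≤ V') {x y : H} : (y : H ⧸ V) ∈ cosets V V' x ↔ x⁻¹ * y ∈ V' := by
  obtain ⟨v, hv, e⟩ := exists_out_eq (V := V) y
  rw [cosets, Set.mem_ofPred_eq, e, ← mul_assoc, Subgroup.mul_mem_cancel_right _ (h hv)]

theorem cosets_eq_image (h : V ≤ V') (x : H) :
    cosets V V' x = Set.range (fun k : V' ⧸ V.subgroupOf V' => (x * (k.out : H) : H ⧸ V)) := by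
  ext y
  induction y using Quotient.inductionOn' with | h y => ?_
  rw [show (Quotient.mk'' y : H ⧸ V) = (y : H ⧸ V) from rfl, mk_mem_cosets h]
  constructor
  · intro hy
    refine ⟨((⟨x⁻¹ * y, hy⟩ : V') : V' ⧸ V.subgroupOf V'), ?_⟩
    obtain ⟨v, hv⟩ := QuotientGroup.mk_out_eq_mul (V.subgroupOf V') (⟨x⁻¹ * y, hy⟩ : V')
    have h1 : ((Quotient.out ((⟨x⁻¹ * y, hy⟩ : V') : V' ⧸ V.subgroupOf V') : V') : H) =
        x⁻¹ * y * (v : V') := by
      rw [hv]; rfl
    show ((x * _ : H) : H ⧸ V) = _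
    rw [h1, QuotientGroup.eq]
    have h2 : ((v : V') : H) ∈ V := v.2
    have h3 : (x * (x⁻¹ * y * (v : V')))⁻¹ * y = ((v : V') : H)⁻¹ := by group
    rw [h3]
    exact V.inv_mem h2
  · rintro ⟨k, hk⟩
    have hk' : ((x * (k.out : H) : H) : H ⧸ V) = y := hk
    rw [QuotientGroup.eq] at hk'
    have h1 : x⁻¹ * y = (k.out : H) * ((x * (k.out : H))⁻¹ * y) := by group
    rw [h1]
    exact V'.mul_mem k.out.2 (h hk')

theorem cosets_injective (h : V ≤ V') (x : H) :
    Function.Injective (fun k : V' ⧸ V.subgroupOf V' => (x * (k.out : H) : H ⧸ V)) := by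
  intro k k' hk
  have hk' : ((x * (k.out : H) : H) : H ⧸ V) = ((x * (k'.out : H) : H) : H ⧸ V) := hk
  rw [QuotientGroup.eq] at hk'
  rw [← QuotientGroup.out_eq' k, ← QuotientGroup.out_eq' k', QuotientGroup.eq]
  rw [Subgroup.mem_subgroupOf]
  have h1 : (x * (k.out : H))⁻¹ * (x * (k'.out : H)) = (k.out : H)⁻¹ * (k'.out : H) := by group
  rw [h1] at hk'
  exact hk'

theorem ncard_cosets (h : V ≤ V') (x : H) : (cosets V V' x).ncard = V.relIndex V' := by
  rw [cosets_eq_image h x, ← Set.image_univ, Set.ncard_image_of_injective _ (cosets_injective h x),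
    Set.ncard_univ]
  rfl

theorem finite_cosets (h : V ≤ V') (hf : V.relIndex V' ≠ 0) (x : H) : (cosets V V' x).Finite := by
  rw [← ncard_cosets h x] at hf
  exact Set.finite_of_ncard_ne_zero hf

open Classical in
theorem IsChar.biFin (hχ : IsChar V V' χ) :
    BiFin V (fun h => if h ∈ V' then (χ h)⁻¹ / (V.relIndex V' : ℂ) else 0) where
  left v hv h := by
    have h1 : v * h ∈ V' ↔ h ∈ V' := Subgroup.mul_mem_cancel_left _ (hχ.le hv)
    by_cases hh : h ∈ V'
    · rw [if_pos hh, if_pos (h1.2 hh), hχ.mul v (hχ.le hv) h hh, hχ.one v hv, one_mul]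
    · rw [if_neg hh, if_neg fun hh' => hh (h1.1 hh')]
  right v hv h := by
    have h1 : h * v ∈ V' ↔ h ∈ V' := Subgroup.mul_mem_cancel_right _ (hχ.le hv)
    by_cases hh : h ∈ V'
    · rw [if_pos hh, if_pos (h1.2 hh), hχ.mul h hh v (hχ.le hv), hχ.one v hv, mul_one]
    · rw [if_neg hh, if_neg fun hh' => hh (h1.1 hh')]
  row := (finite_cosets hχ.le hχ.fin 1).subset fun y hy => by
    rw [cosets, Set.mem_ofPred_eq, inv_one, one_mul]
    by_contra h
    exact hy (if_neg h)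
  col := (finite_cosets hχ.le hχ.fin 1).subset fun y hy => by
    rw [cosets, Set.mem_ofPred_eq, inv_one, one_mul]
    by_contra h
    refine hy (if_neg fun h' => h ?_)
    rw [← inv_inv y.out]
    exact V'.inv_mem h'

/-- The idempotent of the character `χ` of `V'`: projection onto the functions with
`f (x v) = χ v f x`, `v ∈ V'`. -/
def idem (hχ : IsChar V V' χ) : HK H (H ⧸ V) := ofFun hχ.biFin

open Classical in
theorem fn_idem (hχ : IsChar V V' χ) (h : H) :
    (idem hχ).fn h = if h ∈ V' then (χ h)⁻¹ / (V.relIndex V' : ℂ) else 0 := fn_ofFun _ h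

theorem fn_idem_of_mem (hχ : IsChar V V' χ) {h : H} (hh : h ∈ V') :
    (idem hχ).fn h = (χ h)⁻¹ / (V.relIndex V' : ℂ) := by
  rw [fn_idem, if_pos hh]

theorem fn_idem_of_notMem (hχ : IsChar V V' χ) {h : H} (hh : h ∉ V') : (idem hχ).fn h = 0 := by
  rw [fn_idem, if_neg hh]

theorem star_idem (hχ : IsChar V V' χ) : star (idem hχ) = idem hχ := by
  refine ext_fn fun h => ?_
  rw [fn_star]
  by_cases hh : h ∈ V'
  · rw [fn_idem_of_mem hχ hh, fn_idem_of_mem hχ (V'.inv_mem hh), hχ.inv hh, inv_inv, star_div₀,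
      hχ.star hh, star_natCast]
  · rw [fn_idem_of_notMem hχ hh, fn_idem_of_notMem hχ fun h' => hh (by
      rw [← inv_inv h]; exact V'.inv_mem h'), star_zero]

/-- Left multiplication by the idempotent: if `b.fn (v h) = χ(v)⁻¹ b.fn h` on `V'`, then `e b = b`. -/
theorem idem_mul_fn (hχ : IsChar V V' χ) (b : HK H (H ⧸ V))
    (hb : ∀ v ∈ V', ∀ h, b.fn (v * h) = (χ v)⁻¹ * b.fn h) : idem hχ * b = b := by
  refine ext_fn fun h => ?_
  have hn : (V.relIndex V' : ℂ) ≠ 0 := Nat.cast_ne_zero.2 hχ.fin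
  rw [fn_mul, finsum_eq_sum_of_support_subset
    (s := (finite_cosets hχ.le hχ.fin 1).toFinset)]
  · have h1 : ∀ y ∈ (finite_cosets hχ.le hχ.fin 1).toFinset,
        (idem hχ).fn y.out * b.fn (y.out⁻¹ * h) = b.fn h / (V.relIndex V' : ℂ) := by
      intro y hy
      rw [Set.Finite.mem_toFinset, cosets, Set.mem_ofPred_eq, inv_one, one_mul] at hy
      rw [fn_idem_of_mem hχ hy, hb _ (V'.inv_mem hy), hχ.inv hy, inv_inv]
      have := hχ.ne_zero hy
      field_simp
    rw [Finset.sum_congr rfl h1, Finset.sum_const, ← Set.ncard_eq_toFinset_card _ _,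
      ncard_cosets hχ.le, nsmul_eq_mul]
    field_simp
  · intro y hy
    rw [Set.Finite.coe_toFinset, cosets, Set.mem_ofPred_eq, inv_one, one_mul]
    by_contra h'
    refine hy ?_
    show (idem hχ).fn y.out * _ = 0
    rw [fn_idem_of_notMem hχ h', zero_mul]

/-- The idempotent is idempotent. -/
theorem idem_mul_idem (hχ : IsChar V V' χ) : idem hχ * idem hχ = idem hχ := by
  refine idem_mul_fn hχ _ fun v hv h => ?_
  by_cases hh : h ∈ V'
  · rw [fn_idem_of_mem hχ hh, fn_idem_of_mem hχ (V'.mul_mem hv hh), hχ.mul v hv h hh, mul_inv]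
    ring
  · rw [fn_idem_of_notMem hχ hh, fn_idem_of_notMem hχ, mul_zero]
    rwa [Subgroup.mul_mem_cancel_left _ hv]

variable {E : Type*} [AddCommGroup E] [Module ℂ E]

theorem act_idem_apply (hχ : IsChar V V' χ) (f : H ⧸ V → E) (x : H) :
    (idem hχ).act f (x : H ⧸ V) = ((V.relIndex V' : ℂ))⁻¹ •
      ∑ y ∈ (finite_cosets hχ.le hχ.fin x).toFinset, (χ (x⁻¹ * y.out))⁻¹ • f y := by
  rw [act_apply_sum (idem hχ) f (x : H ⧸ V) (s := (finite_cosets hχ.le hχ.fin x).toFinset),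
    Finset.smul_sum]
  · refine Finset.sum_congr rfl fun y hy => ?_
    rw [Set.Finite.mem_toFinset, cosets, Set.mem_ofPred_eq] at hy
    conv_lhs => rw [← QuotientGroup.out_eq' y]
    rw [ker_eq_fn, fn_idem_of_mem hχ hy, smul_smul, QuotientGroup.out_eq', div_eq_inv_mul]
  · intro y hy
    rw [Set.Finite.mem_toFinset, cosets, Set.mem_ofPred_eq]
    by_contra h'
    refine hy ?_
    rw [← QuotientGroup.out_eq' y, ker_eq_fn, fn_idem_of_notMem hχ h']

/-- The image of the idempotent. -/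
theorem act_idem_eq_iff (hχ : IsChar V V' χ) (f : H ⧸ V → E) :
    (idem hχ).act f = f ↔ ∀ (x : H), ∀ v ∈ V', f ((x * v : H) : H ⧸ V) = χ v • f (x : H ⧸ V) := by
  have hn : (V.relIndex V' : ℂ) ≠ 0 := Nat.cast_ne_zero.2 hχ.fin
  constructor
  · intro h x v hv
    rw [← h, act_idem_apply, act_idem_apply]
    have hs : cosets V V' (x * v) = cosets V V' x := by
      ext y
      rw [cosets, cosets, Set.mem_ofPred_eq, Set.mem_ofPred_eq, mul_inv_rev, mul_assoc,
        Subgroup.mul_mem_cancel_left _ (V'.inv_mem hv)]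
    have hs' : (finite_cosets hχ.le hχ.fin (x * v)).toFinset =
        (finite_cosets hχ.le hχ.fin x).toFinset := by
      ext y
      rw [Set.Finite.mem_toFinset, Set.Finite.mem_toFinset, hs]
    have h1 : ∀ y ∈ (finite_cosets hχ.le hχ.fin x).toFinset,
        (χ ((x * v)⁻¹ * y.out))⁻¹ • f y = χ v • ((χ (x⁻¹ * y.out))⁻¹ • f y) := by
      intro y hy
      rw [Set.Finite.mem_toFinset, cosets, Set.mem_ofPred_eq] at hy
      rw [smul_smul, mul_inv_rev, mul_assoc, hχ.mul _ (V'.inv_mem hv) _ hy, hχ.inv hv, mul_inv,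
        inv_inv]
    rw [hs', Finset.sum_congr rfl h1, ← Finset.smul_sum, smul_comm]
  · intro h
    ext x
    induction x using Quotient.inductionOn' with | h x => ?_
    show (idem hχ).act f (x : H ⧸ V) = f (x : H ⧸ V)
    rw [act_idem_apply]
    have h1 : ∀ y ∈ (finite_cosets hχ.le hχ.fin x).toFinset,
        (χ (x⁻¹ * y.out))⁻¹ • f y = f (x : H ⧸ V) := by
      intro y hy
      rw [Set.Finite.mem_toFinset, cosets, Set.mem_ofPred_eq] at hy
      have h2 := h x _ hy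
      rw [mul_inv_cancel_left, QuotientGroup.out_eq'] at h2
      rw [h2, smul_smul, inv_mul_cancel₀ (hχ.ne_zero hy), one_smul]
    rw [Finset.sum_congr rfl h1, Finset.sum_const, ← Set.ncard_eq_toFinset_card _ _,
      ncard_cosets hχ.le, ← Nat.cast_smul_eq_nsmul ℂ, smul_smul, inv_mul_cancel₀ hn, one_smul]

end Idem

/-! ### Elements normalising `V` -/

section Normalizer

variable {η : H}

open Classical in
theorem biFin_norm (hη : ∀ v, η⁻¹ * v * η ∈ V ↔ v ∈ V) :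
    BiFin V (fun h => if η⁻¹ * h ∈ V then (1 : ℂ) else 0) where
  left v hv h := by
    have h1 : η⁻¹ * (v * h) ∈ V ↔ η⁻¹ * h ∈ V := by
      have h2 : η⁻¹ * (v * h) = (η⁻¹ * v * η) * (η⁻¹ * h) := by group
      rw [h2, Subgroup.mul_mem_cancel_left _ ((hη v).2 hv)]
    simp only [h1]
  right v hv h := by
    have h1 : η⁻¹ * (h * v) ∈ V ↔ η⁻¹ * h ∈ V := by
      rw [← mul_assoc, Subgroup.mul_mem_cancel_right _ hv]
    simp only [h1]
  row := (Set.finite_singleton (η : H ⧸ V)).subset fun y hy => by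
    rw [Set.mem_singleton_iff, ← QuotientGroup.out_eq' y, eq_comm, QuotientGroup.eq]
    by_contra h
    exact hy (if_neg h)
  col := (Set.finite_singleton ((η⁻¹ : H) : H ⧸ V)).subset fun y hy => by
    rw [Set.mem_singleton_iff, ← QuotientGroup.out_eq' y, QuotientGroup.eq]
    by_contra h
    refine hy (if_neg fun h' => h ?_)
    rwa [← hη, show η⁻¹ * (y.out⁻¹ * η⁻¹) * η = η⁻¹ * y.out⁻¹ by group]

/-- The operator `f ↦ (x ↦ f (x η))` for `η` normalising `V`. -/
def norm (η : H) (hη : ∀ v, η⁻¹ * v * η ∈ V ↔ v ∈ V) : HK H (H ⧸ V) := ofFun (biFin_norm hη)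

open Classical in
theorem fn_norm (hη : ∀ v, η⁻¹ * v * η ∈ V ↔ v ∈ V) (h : H) :
    (norm η hη).fn h = if η⁻¹ * h ∈ V then (1 : ℂ) else 0 := fn_ofFun _ h

variable {E : Type*} [AddCommGroup E] [Module ℂ E]

theorem act_norm_apply (hη : ∀ v, η⁻¹ * v * η ∈ V ↔ v ∈ V) (f : H ⧸ V → E) (x : H) :
    (norm η hη).act f (x : H ⧸ V) = f ((x * η : H) : H ⧸ V) := by
  rw [act_apply_sum (norm η hη) f (x : H ⧸ V) (s := {((x * η : H) : H ⧸ V)}),
    Finset.sum_singleton, ker_eq_fn, fn_norm, if_pos, one_smul]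
  · rw [show η⁻¹ * (x⁻¹ * (x * η)) = 1 by group]
    exact V.one_mem
  · intro y hy
    rw [← QuotientGroup.out_eq' y, ker_eq_fn, fn_norm] at hy
    rw [Finset.mem_singleton, ← QuotientGroup.out_eq' y, eq_comm, QuotientGroup.eq]
    by_contra h
    refine hy (if_neg ?_)
    rwa [show η⁻¹ * (x⁻¹ * y.out) = (x * η)⁻¹ * y.out by group]

/-- Right multiplication by `norm η`. -/
theorem fn_mul_norm (hη : ∀ v, η⁻¹ * v * η ∈ V ↔ v ∈ V) (a : HK H (H ⧸ V)) (h : H) :
    (a * norm η hη).fn h = a.fn (h * η⁻¹) := by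
  rw [fn_mul, finsum_eq_single _ ((h * η⁻¹ : H) : H ⧸ V)]
  · obtain ⟨v, hv, e⟩ := exists_out_eq (V := V) (h * η⁻¹)
    rw [e, fn_mul_right _ _ hv, fn_norm, if_pos, mul_one]
    rw [show η⁻¹ * ((h * η⁻¹ * v)⁻¹ * h) = η⁻¹ * v⁻¹ * η by group, hη]
    exact V.inv_mem hv
  · intro y hy
    rw [fn_norm, if_neg, mul_zero]
    intro h1
    refine hy ?_
    rw [← QuotientGroup.out_eq' y, QuotientGroup.eq]
    rwa [← hη, show η⁻¹ * (y.out⁻¹ * (h * η⁻¹)) * η = η⁻¹ * (y.out⁻¹ * h) by group]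

/-- Left multiplication by `norm η`. -/
theorem fn_norm_mul (hη : ∀ v, η⁻¹ * v * η ∈ V ↔ v ∈ V) (a : HK H (H ⧸ V)) (h : H) :
    (norm η hη * a).fn h = a.fn (η⁻¹ * h) := by
  rw [fn_mul, finsum_eq_single _ (η : H ⧸ V)]
  · obtain ⟨v, hv, e⟩ := exists_out_eq (V := V) η
    rw [e, fn_norm, if_pos, one_mul, mul_inv_rev, mul_assoc, fn_mul_left _ _ (V.inv_mem hv)]
    rw [show η⁻¹ * (η * v) = v by group]
    exact hv
  · intro y hy
    rw [fn_norm, if_neg, zero_mul]
    intro h1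
    refine hy ?_
    rw [← QuotientGroup.out_eq' y, eq_comm, QuotientGroup.eq]
    exact h1

theorem norm_mul_norm (hη : ∀ v, η⁻¹ * v * η ∈ V ↔ v ∈ V) (h2 : η * η ∈ V) :
    norm η hη * norm η hη = 1 := by
  classical
  refine ext_fn fun h => ?_
  rw [fn_mul_norm, fn_norm, fn_one]
  have h1 : η⁻¹ * (h * η⁻¹) ∈ V ↔ h ∈ V := by
    rw [show η⁻¹ * (h * η⁻¹) = η⁻¹ * (h * (η * η)⁻¹) * η by group, hη,
      Subgroup.mul_mem_cancel_right _ (V.inv_mem h2)]
  simp only [h1]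

theorem star_norm (hη : ∀ v, η⁻¹ * v * η ∈ V ↔ v ∈ V) (h2 : η * η ∈ V) :
    star (norm η hη) = norm η hη := by
  refine ext_fn fun h => ?_
  rw [fn_star, fn_norm, fn_norm]
  have h1 : η⁻¹ * h⁻¹ ∈ V ↔ η⁻¹ * h ∈ V := by
    rw [← mul_inv_rev, V.inv_mem_iff, ← hη, show η⁻¹ * (h * η) * η = η⁻¹ * h * (η * η) by group,
      Subgroup.mul_mem_cancel_right _ h2]
  by_cases hh : η⁻¹ * h ∈ V
  · rw [if_pos hh, if_pos (h1.2 hh), star_one]
  · rw [if_neg hh, if_neg fun h' => hh (h1.1 h'), star_zero]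

end Normalizer

end Fermat.Agent.LT.HK
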