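import Fermat.Agent.LT.HK.Coset
import Fermat.Agent.LT.IwaMap

/-!
# The Iwahori-Hecke algebra at one place as Hecke kernels

`v` a valuation on a field `F`, `𝔡 : Datum v`, `D v = Cos (Iw v)`.

* `𝔡.eH`, `𝔡.wH : HK (GL (Fin 2) F) (D v)`, self-adjoint, `iwaRelH : IwaRel 𝔡.eH 𝔡.wH`;
* `ker_opU_pow`: the kernel of `Uⁿ` is `cnt n`; `v_jinv_of_ker_opU_pow_ne_zero`;
* `act_eH`, `act_wH`: these are the operators `opE`, `opW`;
* `eH_lift`, `wH_lift`: transport along an isomorphism of valued fields;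
* `HK.res`: restriction to a group acting through a homomorphism.
-/

set_option autoImplicit false

open Matrix

noncomputable section

namespace Fermat.Agent.LT

namespace HK

section Res

variable {G G' : Type*} [Group G] [Group G'] {X : Type*} [MulAction G X] [MulAction G' X]

theorem act_single [DecidableEq X] (a : HK G X) (x y : X) :
    a.act (Pi.single y (1 : ℂ)) x = a.ker x y := by
  rw [act_apply_finsum, finsum_eq_single _ y]
  · rw [Pi.single_eq_same, smul_eq_mul, mul_one]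
  · intro z hz
    rw [Pi.single_eq_of_ne hz, smul_zero]

theorem act_injective : Function.Injective (fun a : HK G X => a.act (E := ℂ)) := by
  classical
  intro a b h
  ext x y
  rw [← act_single, ← act_single]
  exact congrFun (congrArg (fun T : (X → ℂ) →ₗ[ℂ] (X → ℂ) => T (Pi.single y 1)) h) x

/-- restriction of the group -/
def res (h : ∀ g' : G', ∃ g : G, ∀ x : X, g • x = g' • x) : HK G X →ₐ[ℂ] HK G' X :=
  map (Equiv.refl X) h

@[simp] theorem ker_res (h : ∀ g' : G', ∃ g : G, ∀ x : X, g • x = g' • x) (a : HK G X) (x y : X) :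
    (res h a).ker x y = a.ker x y := ker_map _ _ _ _ _

theorem star_res (h : ∀ g' : G', ∃ g : G, ∀ x : X, g • x = g' • x) (a : HK G X) :
    res h (star a) = star (res h a) := map_star _ _ _

theorem act_res {E : Type*} [AddCommGroup E] [Module ℂ E]
    (h : ∀ g' : G', ∃ g : G, ∀ x : X, g • x = g' • x) (a : HK G X) (f : X → E) :
    (res h a).act f = a.act f := map_act _ _ _ _

end Res

end HK

namespace Iwa

open Fermat.Agent.LT.Lvl

variable {F : Type*} [Field F] {Γ₀ : Type*} [LinearOrderedCommGroupWithZero Γ₀]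
  {v : Valuation F Γ₀}

namespace Datum

variable (𝔡 : Datum v)

theorem mem_fib_comm {d d' : D v} : d' ∈ 𝔡.fib d ↔ d ∈ 𝔡.fib d' := by
  rw [mem_fib, mem_fib, eq_comm]

/-- The projection onto the functions of the vertices. -/
def eH : HK (GL (Fin 2) F) (D v) := by
  classical
  exact HK.of (fun d d' => if d' ∈ 𝔡.fib d then ((𝔡.q : ℂ) + 1)⁻¹ else 0)
    (fun g d d' => by simp only [smul_mem_fib])
    (fun d => (𝔡.fib d).finite_toSet.subset fun d' hd' => by
      by_contra h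
      exact hd' (if_neg h))
    (fun d' => (𝔡.fib d').finite_toSet.subset fun d hd => by
      by_contra h
      exact hd (if_neg fun h' => h (𝔡.mem_fib_comm.mp h')))

open Classical in
theorem ker_eH (d d' : D v) :
    𝔡.eH.ker d d' = if d' ∈ 𝔡.fib d then ((𝔡.q : ℂ) + 1)⁻¹ else 0 := HK.ker_of _ _ _ _ _ _

/-- The Atkin-Lehner involution. -/
def wH : HK (GL (Fin 2) F) (D v) := by
  classical
  exact HK.of (fun d d' => if d' = 𝔡.wD d then 1 else 0)
    (fun g d d' => by simp only [wD_smul, smul_left_cancel_iff])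
    (fun d => (Set.finite_singleton (𝔡.wD d)).subset fun d' hd' => by
      by_contra h
      exact hd' (if_neg h))
    (fun d' => (Set.finite_singleton (𝔡.wD d')).subset fun d hd => by
      by_contra h
      exact hd (if_neg fun h' => h (by rw [Set.mem_singleton_iff, h', wD_wD])))

open Classical in
theorem ker_wH (d d' : D v) : 𝔡.wH.ker d d' = if d' = 𝔡.wD d then 1 else 0 :=
  HK.ker_of _ _ _ _ _ _

theorem star_eH : star 𝔡.eH = 𝔡.eH := by
  ext d d'
  rw [HK.ker_star, ker_eH, ker_eH]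
  by_cases h : d' ∈ 𝔡.fib d
  · rw [if_pos h, if_pos (𝔡.mem_fib_comm.mp h)]
    simp
  · rw [if_neg h, if_neg fun h' => h (𝔡.mem_fib_comm.mp h'), star_zero]

theorem star_wH : star 𝔡.wH = 𝔡.wH := by
  ext d d'
  rw [HK.ker_star, ker_wH, ker_wH]
  by_cases h : d' = 𝔡.wD d
  · rw [if_pos h, if_pos (by rw [h, wD_wD]), star_one]
  · rw [if_neg h, if_neg (fun h' => h (by rw [h', wD_wD])), star_zero]

section Act

variable {M : Type*} [AddCommGroup M] [Module ℂ M]

theorem act_eH (f : D v → M) : 𝔡.eH.act f = 𝔡.opE f := by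
  funext d
  rw [HK.act_apply_sum _ _ _ (s := 𝔡.fib d), opE_apply, Finset.smul_sum]
  · exact Finset.sum_congr rfl fun d' hd' => by rw [ker_eH, if_pos hd']
  · intro d' hd'
    by_contra h
    rw [ker_eH, if_neg h] at hd'
    exact hd' rfl

theorem act_wH (f : D v → M) : 𝔡.wH.act f = 𝔡.opW f := by
  funext d
  rw [HK.act_apply_sum _ _ _ (s := {𝔡.wD d}), opW_apply, Finset.sum_singleton, ker_wH, if_pos rfl,
    one_smul]
  intro d' hd'
  rw [Finset.mem_singleton]
  by_contra h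
  rw [ker_wH, if_neg h] at hd'
  exact hd' rfl

theorem actHom_eH : HK.actHom (GL (Fin 2) F) (D v) M 𝔡.eH = 𝔡.opE :=
  LinearMap.ext fun f => 𝔡.act_eH f

theorem actHom_wH : HK.actHom (GL (Fin 2) F) (D v) M 𝔡.wH = 𝔡.opW :=
  LinearMap.ext fun f => 𝔡.act_wH f

end Act

theorem actHom_injective {G : Type*} [Group G] {X : Type*} [MulAction G X] :
    Function.Injective (HK.actHom G X ℂ) := fun _ _ h => HK.act_injective h

/-- **The relations of the Iwahori-Hecke algebra.** -/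
theorem iwaRelH : IwaRel 𝔡.eH 𝔡.wH where
  e_sq := actHom_injective (by rw [map_mul, actHom_eH, 𝔡.iwaRel.e_sq])
  w_sq := actHom_injective (by rw [map_mul, actHom_wH, 𝔡.iwaRel.w_sq, map_one])

theorem map_opU {A B : Type*} [Ring A] [Algebra ℂ A] [Ring B] [Algebra ℂ B] (φ : A →ₐ[ℂ] B)
    (q : ℂ) (e w : A) : φ (opU q e w) = opU q (φ e) (φ w) := by
  simp only [opU, map_mul, map_sub, map_smul, map_one]

theorem map_opC {A B : Type*} [Ring A] [Algebra ℂ A] [Ring B] [Algebra ℂ B] (φ : A →ₐ[ℂ] B)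
    (q : ℂ) (e w : A) : φ (opC q e w) = opC q (φ e) (φ w) := by
  simp only [opC, map_mul, map_sub, map_add, map_smul]

theorem map_iwaRel {A B : Type*} [Ring A] [Algebra ℂ A] [Ring B] [Algebra ℂ B] (φ : A →ₐ[ℂ] B)
    {e w : A} (h : IwaRel e w) : IwaRel (φ e) (φ w) :=
  ⟨by rw [← map_mul, h.e_sq], by rw [← map_mul, h.w_sq, map_one]⟩

/-- the operator `U` -/
def uH : HK (GL (Fin 2) F) (D v) := opU (𝔡.q : ℂ) 𝔡.eH 𝔡.wH

/-- the central element `C` -/
def cH : HK (GL (Fin 2) F) (D v) := opC (𝔡.q : ℂ) 𝔡.eH 𝔡.wH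

theorem actHom_uH {M : Type*} [AddCommGroup M] [Module ℂ M] :
    HK.actHom (GL (Fin 2) F) (D v) M 𝔡.uH = opU (𝔡.q : ℂ) 𝔡.opE 𝔡.opW := by
  rw [uH, map_opU, actHom_eH, actHom_wH]

theorem star_opC {A : Type*} [Ring A] [Algebra ℂ A] [StarRing A] [StarModule ℂ A] {q : ℝ}
    {e w : A} (he : star e = e) (hw : star w = w) : star (opC (q : ℂ) e w) = opC (q : ℂ) e w := by
  have hq : star ((q : ℂ) + 1) = (q : ℂ) + 1 := by
    rw [star_add, star_one]
    congr 1
    exact Complex.conj_ofReal q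
  rw [opC, star_smul, hq, star_sub, star_add, star_mul, star_mul, he, hw, add_comm (w * e)]

instance _root_.Fermat.Agent.LT.HK.starModule {G : Type*} [Group G] {X : Type*} [MulAction G X] :
    StarModule ℂ (HK G X) := ⟨fun c a => by ext x y; simp⟩

/-- `C` is self-adjoint -/
theorem star_cH : star 𝔡.cH = 𝔡.cH := by
  have := star_opC (q := (𝔡.q : ℝ)) 𝔡.star_eH 𝔡.star_wH
  rw [Complex.ofReal_natCast] at this
  exact this

/-- **The kernel of `Uⁿ`.** -/
theorem ker_uH_pow (n : ℕ) (d d' : D v) : (𝔡.uH ^ n).ker d d' = 𝔡.cnt n d d' := by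
  classical
  rw [← HK.act_single, ← HK.actHom_apply, map_pow, actHom_uH,
    𝔡.opU_pow_apply n _ _ (s := insert d' (𝔡.ball n d)) (Finset.subset_insert _ _),
    Finset.sum_eq_single d']
  · rw [Pi.single_eq_same, smul_eq_mul, mul_one]
  · intro x _ hx
    rw [Pi.single_eq_of_ne hx, smul_zero]
  · intro h
    exact absurd (Finset.mem_insert_self _ _) h

/-- **The support of the kernel of `Uⁿ` is regular.** -/
theorem v_jinv_of_ker_uH_pow_ne_zero {n : ℕ} (hn : n ≠ 0) {d : D v} {γ : GL (Fin 2) F}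
    (h : (𝔡.uH ^ n).ker d (γ • d) ≠ 0) :
    v (jinv (γ : Matrix (Fin 2) (Fin 2) F)) = (v 𝔡.ϖ)⁻¹ ^ n :=
  𝔡.v_jinv_of_cnt_ne_zero hn fun h0 => h (by rw [ker_uH_pow, h0, Nat.cast_zero])

theorem reach_of_ker_uH_pow_ne_zero {n : ℕ} {d d' : D v} (h : (𝔡.uH ^ n).ker d d' ≠ 0) :
    𝔡.Reach n d d' :=
  𝔡.reach_of_cnt_ne_zero fun h0 => h (by rw [ker_uH_pow, h0, Nat.cast_zero])

/-! ### Independence and transport -/

theorem eH_eq_eH (𝔡' : Datum v) : 𝔡.eH = 𝔡'.eH := by
  ext d d'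
  rw [ker_eH, ker_eH, 𝔡.fib_eq_fib 𝔡', 𝔡.q_eq_q 𝔡']

theorem wH_eq_wH (𝔡' : Datum v) : 𝔡.wH = 𝔡'.wH := by
  ext d d'
  rw [ker_wH, ker_wH, 𝔡.wD_eq_wD 𝔡']

section Lift

variable {F' : Type*} [Field F'] {v' : Valuation F' Γ₀} {f : F ≃+* F'}
  (hv : ∀ x, v' (f x) = v x) (𝔡' : Datum v') {φ : D v → D v'} (hφ : IsLift f φ)

include hv hφ

theorem ker_eH_lift (d d' : D v) : 𝔡'.eH.ker (φ d) (φ d') = 𝔡.eH.ker d d' := by
  rw [ker_eH, ker_eH, Datum.q_lift hv 𝔡 𝔡']
  have h := Datum.mem_fib_lift hv 𝔡 𝔡' hφ (d := d) (d' := d')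
  by_cases h' : d' ∈ 𝔡.fib d
  · rw [if_pos h', if_pos (h.mpr h')]
  · rw [if_neg h', if_neg (fun h'' => h' (h.mp h''))]

theorem ker_wH_lift (d d' : D v) : 𝔡'.wH.ker (φ d) (φ d') = 𝔡.wH.ker d d' := by
  rw [ker_wH, ker_wH, Datum.wD_lift hv 𝔡 𝔡' hφ]
  by_cases h' : d' = 𝔡.wD d
  · rw [if_pos h', if_pos (by rw [h'])]
  · rw [if_neg h', if_neg (fun h'' => h' (hφ.injective_D hv h''))]

end Lift

/-- `φ` as an equivalence -/
def liftEquiv {F' : Type*} [Field F'] {v' : Valuation F' Γ₀} {f : F ≃+* F'}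
    (hv : ∀ x, v' (f x) = v x) {φ : D v → D v'} (hφ : IsLift f φ) : D v ≃ D v' :=
  Equiv.ofBijective φ ⟨hφ.injective_D hv, hφ.surjective⟩

section LiftMap

variable {F' : Type*} [Field F'] {v' : Valuation F' Γ₀} {f : F ≃+* F'}
  (hv : ∀ x, v' (f x) = v x) (𝔡' : Datum v')

include hv

/-- transport of `e` along any bijection `t` which is `IsLift` -/
theorem ker_symm_eH {t : D v ≃ D v'} (ht : IsLift f t) (d d' : D v') :
    𝔡.eH.ker (t.symm d) (t.symm d') = 𝔡'.eH.ker d d' := by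
  rw [← ker_eH_lift 𝔡 hv 𝔡' ht, Equiv.apply_symm_apply, Equiv.apply_symm_apply]

theorem ker_symm_wH {t : D v ≃ D v'} (ht : IsLift f t) (d d' : D v') :
    𝔡.wH.ker (t.symm d) (t.symm d') = 𝔡'.wH.ker d d' := by
  rw [← ker_wH_lift 𝔡 hv 𝔡' ht, Equiv.apply_symm_apply, Equiv.apply_symm_apply]

end LiftMap

end Datum

end Iwa

end Fermat.Agent.LT

end
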